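import Fermat.Prelude.Def_ModularCurve_ReductionModL
import Fermat.Prelude.Def_ModularCurve_ModularUnit

/-!
# S15 / GEO (helper542): the modular unit `Δ(q)/Δ(q^p)` as an integral `q`-series

Over every commutative ring `R` the series `modUnitR R p = Δ(q) · Δ(q^p)⁻¹` and its inverse
`modUnitInvR R p` are defined; they are compatible with coefficient maps, and over `ℚ` one gets
back the Prelude's `ModularCurve.modularUnitSeries p`.
-/

set_option autoImplicit false

noncomputable section

open HahnSeries ModularCurve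

namespace Fermat.Agent.S15.H542

section Ring

variable (R : Type*) [CommRing R]

/-- `∏ (1 - qⁿ)²⁴` over `R`. -/
def etaUnitR : PowerSeries R := dedekindEtaUnit.map (Int.castRingHom R)

/-- `∏ (1 - qⁿ)⁻²⁴` over `R`. -/
def etaUnitInvR : PowerSeries R := dedekindEtaUnitInv.map (Int.castRingHom R)

theorem etaUnitR_mul_inv : etaUnitR R * etaUnitInvR R = 1 := by
  rw [etaUnitR, etaUnitInvR, ← map_mul, dedekindEtaUnit_mul_inv, map_one]

/-- `Δ(q)` over `R`. -/
def deltaR : LaurentSeries R :=
  HahnSeries.single (1 : ℤ) 1 * HahnSeries.ofPowerSeries ℤ R (etaUnitR R)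

/-- `Δ(q)⁻¹` over `R`. -/
def deltaInvR : LaurentSeries R :=
  HahnSeries.single (-1 : ℤ) 1 * HahnSeries.ofPowerSeries ℤ R (etaUnitInvR R)

theorem deltaR_mul_inv : deltaR R * deltaInvR R = 1 := by
  have h1 : (HahnSeries.single (1 : ℤ) (1 : R)) * HahnSeries.single (-1 : ℤ) 1 = 1 := by
    rw [HahnSeries.single_mul_single]
    simp
  calc deltaR R * deltaInvR R
      = (HahnSeries.single (1 : ℤ) 1 * HahnSeries.single (-1 : ℤ) 1) *
        (HahnSeries.ofPowerSeries ℤ R (etaUnitR R) *
          HahnSeries.ofPowerSeries ℤ R (etaUnitInvR R)) := by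
        rw [deltaR, deltaInvR]; ring
    _ = 1 := by rw [h1, ← map_mul, etaUnitR_mul_inv, map_one, mul_one]

variable (p : ℕ) [NeZero p]

/-- The modular unit `Δ(q)/Δ(q^p)` over `R`. -/
def modUnitR : LaurentSeries R := deltaR R * qExpand R p (deltaInvR R)

/-- The inverse modular unit `Δ(q^p)/Δ(q)` over `R`. -/
def modUnitInvR : LaurentSeries R := deltaInvR R * qExpand R p (deltaR R)

theorem modUnitR_mul_inv : modUnitR R p * modUnitInvR R p = 1 := by
  calc modUnitR R p * modUnitInvR R p
      = (deltaR R * deltaInvR R) * qExpand R p (deltaR R * deltaInvR R) := by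
        rw [modUnitR, modUnitInvR, map_mul]; ring
    _ = 1 := by rw [deltaR_mul_inv, map_one, mul_one]

variable {R}
variable {S : Type*} [CommRing S]

theorem map_etaUnitR (f : R →+* S) : (etaUnitR R).map f = etaUnitR S := by
  rw [etaUnitR, etaUnitR, ← RingHom.comp_apply (PowerSeries.map f), ← PowerSeries.map_comp,
    RingHom.ext_int (f.comp (Int.castRingHom R)) (Int.castRingHom S)]

theorem map_etaUnitInvR (f : R →+* S) : (etaUnitInvR R).map f = etaUnitInvR S := by
  rw [etaUnitInvR, etaUnitInvR, ← RingHom.comp_apply (PowerSeries.map f), ← PowerSeries.map_comp,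
    RingHom.ext_int (f.comp (Int.castRingHom R)) (Int.castRingHom S)]

theorem coeffMap_deltaR (f : R →+* S) : coeffMap f (deltaR R) = deltaR S := by
  rw [deltaR, map_mul, coeffMap_single, map_one, coeffMap_ofPowerSeries, map_etaUnitR, deltaR]

theorem coeffMap_deltaInvR (f : R →+* S) : coeffMap f (deltaInvR R) = deltaInvR S := by
  rw [deltaInvR, map_mul, coeffMap_single, map_one, coeffMap_ofPowerSeries, map_etaUnitInvR,
    deltaInvR]

theorem coeffMap_modUnitR (f : R →+* S) : coeffMap f (modUnitR R p) = modUnitR S p := by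
  rw [modUnitR, map_mul, coeffMap_deltaR, coeffMap_qExpand, coeffMap_deltaInvR, modUnitR]

theorem coeffMap_modUnitInvR (f : R →+* S) :
    coeffMap f (modUnitInvR R p) = modUnitInvR S p := by
  rw [modUnitInvR, map_mul, coeffMap_deltaInvR, coeffMap_qExpand, coeffMap_deltaR, modUnitInvR]

end Ring

section Rat

variable (p : ℕ) [NeZero p]

theorem deltaR_rat : deltaR ℚ = deltaSeries := rfl

theorem modUnitR_rat : modUnitR ℚ p = modularUnitSeries p := by
  rw [modUnitR, modularUnitSeries, deltaR_rat]
  congr 1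
  have h : qExpand ℚ p (deltaInvR ℚ) * deltaSeriesN p = 1 := by
    rw [deltaSeriesN, ← deltaR_rat, ← map_mul, mul_comm, deltaR_mul_inv, map_one]
  exact eq_inv_of_mul_eq_one_left h

theorem coeffEmb_modularUnitSeries (L : Type*) [Field L] [Algebra ℚ L] :
    coeffEmb L (modularUnitSeries p) = modUnitR L p := by
  rw [← modUnitR_rat, coeffEmb, coeffMap_modUnitR]

end Rat

end Fermat.Agent.S15.H542
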