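import Fermat.Agent.S15.H542.GeoDisc
import Fermat.Agent.S12.H291.ModSub
import Fermat.Agent.S12.H291.GeoSubParts

/-!
# S15 / S12, node GEO-PARTS, leaf (c) = DISC in SUBGROUP form (helper542)

The same as `GeoD.lean` / `GeoDisc.lean`, with "`Q` Galois-fixed" weakened to "`⟨Q⟩`
Galois-stable" (helper291's form, consumed by rows S15 AND S12):

* `moduliPlaceSub_of_mult`, `exists_geoClassSub`, `geoDiscSub`;
* `geoPartsSub_of_pieces` : `S12.H291.GeoPartsSubStatement p` from (a) `PropagationStatement p`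
  and (b) + GE-2 (i) (a specialisation map injective on prime-to-`q` torsion killing `discK`).
-/

set_option autoImplicit false

noncomputable section

open WeierstrassCurve AlgebraicCurve ModularCurve
open scoped WeierstrassCurve.Affine

namespace Fermat.Agent.S15.H542

open Fermat.Agent.S15.H782 Fermat.Agent.S15.H602 Fermat.Agent.S15.Core Fermat.Agent.S15.H962

/-- **MOD at an arbitrary multiplicative prime, subgroup form.** -/
theorem moduliPlaceSub_of_mult (p : ℕ) [NeZero p] (hp : p.Prime) (hp2 : p ≠ 2)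
    (W : WeierstrassCurve ℤ) (hΔ : W.Δ ≠ 0) (Q : (curveBar W).toAffine.Point)
    (hQstab : ∀ σ : AlgebraicClosure ℚ ≃ₐ[ℚ] AlgebraicClosure ℚ,
      σ • Q ∈ AddSubgroup.zmultiples Q)
    (hQord : addOrderOf Q = p)
    {ℓ : ℕ} (hℓ : ℓ.Prime) (hℓΔ : (ℓ : ℤ) ∣ W.Δ) (hℓc₄ : ¬ (ℓ : ℤ) ∣ W.c₄) :
    ∃ P : Place (AlgebraicClosure ℚ) (modularFunctionFieldBar p),
      IsGaloisFixedPlace P ∧
      HasValueAt P (jBar p) (jInv (curveBar W)) ∧
      HasValueAt P (jNBar p) (jInv (veluCurve (curveBar W) Q p)) ∧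
      ∀ P' : Place (AlgebraicClosure ℚ) (modularFunctionFieldBar p),
        HasValueAt P' (jBar p) (jInv (curveBar W)) →
        HasValueAt P' (jNBar p) (jInv (veluCurve (curveBar W) Q p)) → P' = P := by
  obtain ⟨A, hA⟩ := Fermat.Agent.S54.exists_valuationSubring_liesOver ℓ hℓ
  have hv : 1 < A.valuation (jInv (curveBar W)) := one_lt_val_jInv_curveBar hΔ hℓ hℓΔ hℓc₄ hA
  obtain ⟨-, hpair⟩ := Fermat.Agent.S15.H215.veluModularPair p hp hp2 (curveBar W)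
    (Δ_curveBar_ne_zero W hΔ) Q hQord
  obtain ⟨r', hr'⟩ := Fermat.Agent.S12.H291.veluRationalSub hp hp2 W Q hQord hQstab
  obtain ⟨P, hP1, hP2⟩ := Fermat.Agent.S15.H602.placeOfModularPairStatement p hp _ _ hpair
  have huniq : ∀ P' : Place (AlgebraicClosure ℚ) (modularFunctionFieldBar p),
      HasValueAt P' (jBar p) (jInv (curveBar W)) →
      HasValueAt P' (jNBar p) (jInv (veluCurve (curveBar W) Q p)) → P' = P :=
    fun P' h1 h2 => place_unique_of_one_lt_val p hp A.valuation hv h1 h2 hP1 hP2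
  refine ⟨P, ?_, hP1, hP2, huniq⟩
  intro σ
  apply huniq
  · have hj := jInv_curveBar W
    rw [hj] at hP1 ⊢
    exact hasValueAt_smul_of_rational σ P (jBar p) jq rfl _ hP1
  · rw [← hr'] at hP2 ⊢
    exact hasValueAt_smul_of_rational σ P (jNBar p) (qExpand ℚ p jq) rfl _ hP2

/-- **The datum `D` of the node GEO**, subgroup form. -/
theorem exists_geoClassSub (p : ℕ) [NeZero p] (hp : p.Prime) (hp5 : 5 < p)
    (W : WeierstrassCurve ℤ) (hΔ : W.Δ ≠ 0) (Q : (curveBar W).toAffine.Point)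
    (hQstab : ∀ σ : AlgebraicClosure ℚ ≃ₐ[ℚ] AlgebraicClosure ℚ,
      σ • Q ∈ AddSubgroup.zmultiples Q)
    (hQord : addOrderOf Q = p)
    (P₀ : Place (AlgebraicClosure ℚ) (modularFunctionFieldBar p))
    (hP₀ : Fermat.Agent.S15.Core.IsCuspZero p P₀) :
    ∃ D : JZero p, (∀ σ : AlgebraicClosure ℚ ≃ₐ[ℚ] AlgebraicClosure ℚ, σ • D = D) ∧
      ∀ q : ℕ, q.Prime → q ≠ p → (q : ℤ) ∣ W.Δ → ¬ (q : ℤ) ∣ W.c₄ →
      ∀ A : ValuationSubring (AlgebraicClosure ℚ), A.LiesOverPrime q →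
      ∃ P : Place (AlgebraicClosure ℚ) (modularFunctionFieldBar p),
        Fermat.Agent.S15.Core.IsDiffClass P P₀ D ∧
        HasValueAt P (jBar p) (jInv (curveBar W)) ∧
        HasValueAt P (jNBar p) (jInv (veluCurve (curveBar W) Q p)) ∧
        1 < A.valuation (jInv (curveBar W)) ∧
        (¬ W.InZeroComponentAt A Q →
          A.valuation (jInv (veluCurve (curveBar W) Q p)) ^ p =
            A.valuation (jInv (curveBar W))) ∧
        (W.InZeroComponentAt A Q →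
          A.valuation (jInv (veluCurve (curveBar W) Q p)) =
            A.valuation (jInv (curveBar W)) ^ p) := by
  have hp2 : p ≠ 2 := by omega
  by_cases hex : ∃ ℓ : ℕ, ℓ.Prime ∧ (ℓ : ℤ) ∣ W.Δ ∧ ¬ (ℓ : ℤ) ∣ W.c₄
  · obtain ⟨ℓ, hℓ, hℓΔ, hℓc₄⟩ := hex
    obtain ⟨P, hPfix, hP1, hP2, -⟩ :=
      moduliPlaceSub_of_mult p hp hp2 W hΔ Q hQstab hQord hℓ hℓΔ hℓc₄
    have hP₀eq : P₀ = Fermat.Agent.S15.H362.cuspZero p :=
      Fermat.Agent.S15.H482.IsCuspZero.eq_cuspZero p hp hP₀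
    have hdeg : P.deg = P₀.deg := by
      rw [Fermat.Agent.Lib.FF398.deg_eq_one_FF p P, Fermat.Agent.Lib.FF398.deg_eq_one_FF p P₀]
    refine ⟨ptClass P P₀ hdeg, ?_, ?_⟩
    · intro σ
      refine galois_smul_ptClass_eq_self (modularFunctionFieldFull p) σ hdeg (hPfix σ) ?_
      rw [hP₀eq]
      exact Fermat.Agent.S15.H362.galois_smul_cuspZero p σ
    · intro q hq hqp hqΔ hqc₄ A hA
      exact ⟨P, ⟨single_sub_single_mem_degZero hdeg, rfl⟩, hP1, hP2,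
        one_lt_val_jInv_curveBar hΔ hq hqΔ hqc₄ hA,
        fun hQ0 => val_jInv_velu_of_not_inZeroComponentAt hp hp5 hΔ hQord hq hqp hqΔ hqc₄ hA hQ0,
        fun hQ0 => val_jInv_velu_of_inZeroComponentAt hp hp5 hΔ hQord hq hqp hqΔ hqc₄ hA hQ0⟩
  · refine ⟨0, fun σ => smul_zero (A := JZero p) σ, ?_⟩
    intro q hq _ hqΔ hqc₄
    exact absurd ⟨q, hq, hqΔ, hqc₄⟩ hex

/-- **GEO-PARTS (c), DISC, subgroup form.** -/
theorem geoDiscSub (p : ℕ) [NeZero p] (hp : p.Prime) (hp5 : 5 < p)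
    (W : WeierstrassCurve ℤ) (hΔ : W.Δ ≠ 0)
    (Q : ((W.map (Int.castRingHom ℚ))⁄(AlgebraicClosure ℚ)).Point)
    (hQstab : ∀ σ : AlgebraicClosure ℚ ≃ₐ[ℚ] AlgebraicClosure ℚ,
      σ • Q ∈ AddSubgroup.zmultiples Q)
    (hQord : addOrderOf Q = p)
    (P₀ : Place (AlgebraicClosure ℚ) (modularFunctionFieldBar p)) (c : JZero p)
    (hP₀ : IsCuspZero p P₀) (hc : IsDiffClass P₀ (cuspInfty p) c) :
    ∃ D : JZero p, (∀ σ : AlgebraicClosure ℚ ≃ₐ[ℚ] AlgebraicClosure ℚ, σ • D = D) ∧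
      ∀ q : ℕ, q.Prime → q ≠ p → (q : ℤ) ∣ W.Δ → ¬ (q : ℤ) ∣ W.c₄ →
      ∀ A : ValuationSubring (AlgebraicClosure ℚ), A.LiesOverPrime q →
        (¬ W.InZeroComponentAt A Q → D ∈ discK p A P₀) ∧
        (W.InZeroComponentAt A Q → D + c ∈ discK p A P₀) := by
  obtain ⟨D, hDfix, hD⟩ := exists_geoClassSub p hp hp5 W hΔ Q hQstab hQord P₀ hP₀
  refine ⟨D, hDfix, fun q hq hqp hqΔ hqc₄ A hA => ?_⟩
  obtain ⟨P, hPD, hP1, hP2, hv, h0, hInf⟩ := hD q hq hqp hqΔ hqc₄ A hA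
  constructor
  · intro hQ0
    exact mem_discK_of_inDiscZero ⟨_, _, hP1, hP2, hv, h0 hQ0⟩ hPD
  · intro hQ0
    exact mem_discK_of_inDiscInfty ⟨_, _, hP1, hP2, hv, hInf hQ0⟩ (isDiffClass_add hPD hc)

/-- **GEO-PARTS (subgroup form) from (a) PROPAGATION and (b) IDENT + GE-2 (i).** -/
theorem geoPartsSub_of_pieces (p : ℕ) [NeZero p] (hp : p.Prime) (hp5 : 5 < p)
    (hprop : PropagationStatement p)
    (hsp : ∀ q : ℕ, q.Prime → q ≠ p →
      ∀ A : ValuationSubring (AlgebraicClosure ℚ), A.LiesOverPrime q →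
      ∀ P₀ : Place (AlgebraicClosure ℚ) (modularFunctionFieldBar p), IsCuspZero p P₀ →
      ∃ (X : Type) (_ : AddCommGroup X) (sp₀ : JZero p →+ X),
        (∀ (m : ℕ) (z : JZero p), ¬ q ∣ m → m • z = 0 → sp₀ z = 0 → z = 0) ∧
        KilledBy p A P₀ sp₀) :
    Fermat.Agent.S12.H291.GeoPartsSubStatement p := by
  intro W hΔ Q hQstab hQord P₀ c hP₀ hc
  obtain ⟨D, hDfix, hD⟩ := geoDiscSub p hp hp5 W hΔ Q hQstab hQord P₀ c hP₀ hc
  refine ⟨D, hDfix, fun q hq hqp hqΔ hqc₄ A hA => ?_⟩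
  obtain ⟨X, instX, sp₀, hinj, hkill⟩ := hsp q hq hqp A hA P₀ hP₀
  obtain ⟨h0, hInf⟩ := hD q hq hqp hqΔ hqc₄ A hA
  exact ⟨X, instX, sp₀, discK p A P₀, hinj,
    goodHecke_stable_of_propagation p hprop hp A P₀ hP₀ {q}, hkill, h0, hInf⟩

/-- **The node GEO in subgroup form (row S12) from (a) and (b) + GE-2 (i).** -/
theorem geoSub_of_pieces (p : ℕ) [NeZero p] (hp : p.Prime) (hp5 : 5 < p)
    (hprop : PropagationStatement p)
    (hsp : ∀ q : ℕ, q.Prime → q ≠ p →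
      ∀ A : ValuationSubring (AlgebraicClosure ℚ), A.LiesOverPrime q →
      ∀ P₀ : Place (AlgebraicClosure ℚ) (modularFunctionFieldBar p), IsCuspZero p P₀ →
      ∃ (X : Type) (_ : AddCommGroup X) (sp₀ : JZero p →+ X),
        (∀ (m : ℕ) (z : JZero p), ¬ q ∣ m → m • z = 0 → sp₀ z = 0 → z = 0) ∧
        KilledBy p A P₀ sp₀) :
    Fermat.Agent.S12.H111.GeoSubStatement p :=
  Fermat.Agent.S12.H291.geoSub_of_geoPartsSub (geoPartsSub_of_pieces p hp hp5 hprop hsp)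

end Fermat.Agent.S15.H542
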