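import Mathlib
import Fermat.Agent.S15.H962.NewtonVal

/-!
# S15, piece MOD-A2 (helper542), algebraic core: the big root of `Φ_p(a, Y)` is simple

Let `Φ ∈ ℤ[X][Y]` have modular shape of level `N ≥ 2` (`H962.IsModularShape`), `v` a valuation on
an algebraically closed field `K`, and `a, b ∈ K` with `Φ(a, b) = 0`, `1 < v a`, `v b = (v a)^N`.
Then `b` is a simple root of `Φ(a, Y)`: `∂Φ/∂Y (a, b) ≠ 0`.

(The Newton polygon of `Φ(a, Y)` has exactly one root of valuation `(v a)^N`; the other `N` roots
have valuation `(v a)^{1/N}`.  Proof here: all roots have valuation `> 1`, the product of the roots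
has valuation `(v a)^{N+1}`, and a double root `b` would contribute `(v a)^{2N} > (v a)^{N+1}`.)
-/

set_option autoImplicit false

noncomputable section

open Polynomial

namespace Fermat.Agent.S15.H542

open Fermat.Agent.S15.H962

section Alg

variable {K : Type*} [Field K]

/-- The one-variable polynomial `Φ(a, Y)`. -/
def phiSpec (Φ : ℤ[X][X]) (a : K) : K[X] :=
  Φ.map (Polynomial.eval₂RingHom (Int.castRingHom K) a)

theorem eval_phiSpec (Φ : ℤ[X][X]) (a b : K) : (phiSpec Φ a).eval b = eval2 Φ a b := by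
  unfold phiSpec eval2
  rw [Polynomial.eval_map]

theorem eval_derivative_phiSpec (Φ : ℤ[X][X]) (a b : K) :
    (derivative (phiSpec Φ a)).eval b = eval2 (derivative Φ) a b := by
  unfold phiSpec eval2
  rw [Polynomial.derivative_map, Polynomial.eval_map]

theorem phiSpec_monic {Φ : ℤ[X][X]} (hΦ : Φ.Monic) (a : K) : (phiSpec Φ a).Monic :=
  hΦ.map _

theorem phiSpec_coeff_zero (Φ : ℤ[X][X]) (a : K) :
    (phiSpec Φ a).coeff 0 = (Φ.coeff 0).eval₂ (Int.castRingHom K) a := by
  simp [phiSpec, Polynomial.coeff_map]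

theorem phiSpec_natDegree {Φ : ℤ[X][X]} (hΦ : Φ.Monic) (a : K) :
    (phiSpec Φ a).natDegree = Φ.natDegree :=
  hΦ.natDegree_map _

variable {Γ₀ : Type*} [LinearOrderedCommGroupWithZero Γ₀] (v : Valuation K Γ₀)

/-- The valuation of a product of a multiset all of whose members have valuation `≥ 1`. -/
theorem one_le_val_multiset_prod (s : Multiset K) (h : ∀ r ∈ s, 1 ≤ v r) : 1 ≤ v s.prod := by
  refine Multiset.prod_induction (fun x => 1 ≤ v x) s ?_ ?_ h
  · intro x y hx hy
    rw [map_mul]
    calc (1 : Γ₀) = 1 * 1 := (mul_one 1).symm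
      _ ≤ v x * v y := mul_le_mul' hx hy
  · simp

/-- **The big root is simple.** -/
theorem simple_root_of_isModularShape [IsAlgClosed K] {N : ℕ} (hN : 1 < N) {Φ : ℤ[X][X]}
    (hΦ : IsModularShape N Φ) {a b : K} (ha : 1 < v a) (h : eval2 Φ a b = 0)
    (hb : v b = v a ^ N) : eval2 (derivative Φ) a b ≠ 0 := by
  classical
  intro hd
  have hN0 : 0 < N := by omega
  set f := phiSpec Φ a with hf
  have hf_monic : f.Monic := phiSpec_monic hΦ.monic a
  have hf0 : f ≠ 0 := hf_monic.ne_zero
  have hroot : f.IsRoot b := by rw [IsRoot, hf, eval_phiSpec]; exact h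
  have hdroot : (derivative f).IsRoot b := by rw [IsRoot, hf, eval_derivative_phiSpec]; exact hd
  have hmult : 1 < f.rootMultiplicity b :=
    (one_lt_rootMultiplicity_iff_isRoot hf0).mpr ⟨hroot, hdroot⟩
  have hcount : 2 ≤ f.roots.count b := by rw [count_roots]; exact hmult
  have hsplit : f.Splits := IsAlgClosed.splits f
  have hprod : f.coeff 0 = (-1) ^ f.natDegree * f.roots.prod :=
    hsplit.coeff_zero_eq_prod_roots_of_monic hf_monic
  -- valuation of the constant coefficient
  have hc0 : v (f.coeff 0) = v a ^ (N + 1) := by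
    rw [hf, phiSpec_coeff_zero]
    exact val_eval_eq v ha (Φ.coeff 0) hΦ.coeff_zero_natDegree hΦ.coeff_zero_unit
  -- all roots have valuation ≥ 1
  have hroots : ∀ r ∈ f.roots, 1 ≤ v r := by
    intro r hr
    have hr0 : eval2 Φ a r = 0 := by
      rw [← eval_phiSpec]
      exact (Polynomial.mem_roots hf0).mp hr
    rcases val_root_of_isModularShape v hN0 hΦ ha hr0 with h1 | h1
    · rw [h1]; exact (one_lt_pow₀ ha hN0.ne').le
    · exact (one_lt_of_pow_eq ha h1).le
  -- split off the double root
  obtain ⟨t, ht⟩ := Multiset.le_iff_exists_add.mp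
    (Multiset.le_count_iff_replicate_le.mp hcount)
  have hprod2 : f.roots.prod = b ^ 2 * t.prod := by
    rw [ht, Multiset.prod_add, Multiset.prod_replicate]
  have ht1 : 1 ≤ v t.prod := by
    refine one_le_val_multiset_prod v t fun r hr => hroots r ?_
    rw [ht]
    exact Multiset.mem_add.mpr (Or.inr hr)
  have hval : v (f.coeff 0) = v a ^ (2 * N) * v t.prod := by
    rw [hprod, hprod2, map_mul, map_pow, Valuation.map_neg, map_one, one_pow, one_mul, map_mul,
      map_pow, hb, ← pow_mul, mul_comm N 2]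
  rw [hc0] at hval
  have hlt : v a ^ (N + 1) < v a ^ (2 * N) := pow_lt_pow_right₀ ha (by omega)
  have hle : v a ^ (2 * N) ≤ v a ^ (2 * N) * v t.prod := by
    calc v a ^ (2 * N) = v a ^ (2 * N) * 1 := (mul_one _).symm
      _ ≤ v a ^ (2 * N) * v t.prod := mul_le_mul' le_rfl ht1
  rw [← hval] at hle
  exact absurd hlt (not_lt.mpr hle)

end Alg

end Fermat.Agent.S15.H542
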