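import Fermat.Agent.S15.H542.ModSpec
import Fermat.Agent.S15.H542.ModA2Alg
import Fermat.Agent.S15.H602.PlaceOfPoint
import Fermat.Agent.S15.H386.ModShapeExists

/-!
# S15, piece MOD-A2 (helper542): uniqueness of the place with given `(j, j_p)`-values

`placeUnique : PlaceUniqueStatement`.

Route (no discriminant of `Φ_p` needed):
* `F = ℚ̄(j, j_p)` (`adjoin_jBar_jNBar_eq_top`);
* `Φ = Φ_p` has modular shape and `Φ(j, j_p) = 0 = Φ(j_p, j)` (helper386);
* for a valuation `v` of `ℚ̄` over `2`, `v r > 1`, hence (Newton polygon, helper962)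
  `v a' = (v r)^p` or `(v a')^p = v r`;
* in the first case `a'` is a simple root of `Φ(r, Y)`, in the second `r` is a simple root of
  `Φ(a', Y)` (`simple_root_of_isModularShape`);
* a place centred at a simple point of a plane model is unique (helper602).
-/

set_option autoImplicit false

noncomputable section

open Polynomial AlgebraicCurve ModularCurve HahnSeries

namespace Fermat.Agent.S15.H542

open Fermat.Agent.S15.H962 Fermat.Agent.S15.H602

/-! ## Generation -/

section Generation

variable (p : ℕ) [NeZero p]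

theorem coe_jBar : ((jBar p : modularFunctionFieldBar p) : LaurentSeries (AlgebraicClosure ℚ)) =
    coeffEmb (AlgebraicClosure ℚ) jq := rfl

theorem coe_jNBar : ((jNBar p : modularFunctionFieldBar p) : LaurentSeries (AlgebraicClosure ℚ)) =
    coeffEmb (AlgebraicClosure ℚ) (qExpand ℚ p jq) := rfl

/-- `coeffEmb` of an element of `ℚ(j, j_p)` lies in `ℚ̄(j, j_p)`. -/
theorem coeffEmb_mem_adjoin_pair (hp : p.Prime) {x : LaurentSeries ℚ}
    (hx : x ∈ modularFunctionFieldFull p) :
    coeffEmb (AlgebraicClosure ℚ) x ∈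
      IntermediateField.adjoin (AlgebraicClosure ℚ)
        ({coeffEmb (AlgebraicClosure ℚ) jq, coeffEmb (AlgebraicClosure ℚ) (qExpand ℚ p jq)} :
          Set (LaurentSeries (AlgebraicClosure ℚ))) := by
  unfold modularFunctionFieldFull at hx
  induction hx using IntermediateField.adjoin_induction with
  | mem x hx =>
    obtain ⟨d, hd0, hd, rfl⟩ := hx
    rcases (Nat.dvd_prime hp).mp hd with rfl | rfl
    · rw [qExpand_one_apply]
      exact IntermediateField.subset_adjoin _ _ (Set.mem_insert _ _)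
    · exact IntermediateField.subset_adjoin _ _ (Set.mem_insert_of_mem _ rfl)
  | algebraMap c =>
    have h : coeffEmb (AlgebraicClosure ℚ) (algebraMap ℚ (LaurentSeries ℚ) c) =
        algebraMap (AlgebraicClosure ℚ) (LaurentSeries (AlgebraicClosure ℚ))
          (algebraMap ℚ (AlgebraicClosure ℚ) c) := by
      rw [algebraMap_laurentSeries_eq_single, algebraMap_laurentSeries_eq_single, coeffEmb,
        coeffMap_single]
    rw [h]
    exact IntermediateField.algebraMap_mem _ _
  | add x y _ _ hx hy => rw [map_add]; exact add_mem hx hy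
  | inv x _ hx => rw [map_inv₀]; exact inv_mem hx
  | mul x y _ _ hx hy => rw [map_mul]; exact mul_mem hx hy

/-- `F = ℚ̄(j, j_p)` at prime level. -/
theorem adjoin_jBar_jNBar_eq_top (hp : p.Prime) :
    IntermediateField.adjoin (AlgebraicClosure ℚ)
      ({jBar p, jNBar p} : Set (modularFunctionFieldBar p)) = ⊤ := by
  rw [eq_top_iff]
  intro f _
  rw [← IntermediateField.mem_lift, IntermediateField.lift_adjoin]
  have himg : (Subtype.val '' ({jBar p, jNBar p} : Set (modularFunctionFieldBar p))) =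
      ({coeffEmb (AlgebraicClosure ℚ) jq, coeffEmb (AlgebraicClosure ℚ) (qExpand ℚ p jq)} :
          Set (LaurentSeries (AlgebraicClosure ℚ))) := by
    rw [Set.image_pair]
    rfl
  rw [himg]
  have hle : modularFunctionFieldBar p ≤ IntermediateField.adjoin (AlgebraicClosure ℚ)
        ({coeffEmb (AlgebraicClosure ℚ) jq, coeffEmb (AlgebraicClosure ℚ) (qExpand ℚ p jq)} :
          Set (LaurentSeries (AlgebraicClosure ℚ))) := by
    unfold modularFunctionFieldBar laurentBaseChange
    rw [IntermediateField.adjoin_le_iff]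
    rintro _ ⟨x, hx, rfl⟩
    exact coeffEmb_mem_adjoin_pair p hp hx
  exact hle f.2

theorem adjoin_jNBar_jBar_eq_top (hp : p.Prime) :
    IntermediateField.adjoin (AlgebraicClosure ℚ)
      ({jNBar p, jBar p} : Set (modularFunctionFieldBar p)) = ⊤ := by
  rw [Set.pair_comm]
  exact adjoin_jBar_jNBar_eq_top p hp

end Generation


/-! ## A valuation over `2` -/

section TwoAdic

/-- There is a valuation subring of `ℚ̄` in which `2` is not a unit. -/
theorem exists_valuationSubring_two :
    ∃ A : ValuationSubring (AlgebraicClosure ℚ), (2 : AlgebraicClosure ℚ) ∈ A.nonunits := by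
  let A₀ : Subring (AlgebraicClosure ℚ) := (algebraMap ℤ (AlgebraicClosure ℚ)).range
  let l₀ : A₀ := ⟨(2 : AlgebraicClosure ℚ), ⟨(2 : ℤ), by simp⟩⟩
  have hI : Ideal.span {l₀} ≠ ⊤ := by
    intro h
    rw [Ideal.span_singleton_eq_top] at h
    obtain ⟨⟨m, n, rfl⟩, hm⟩ := h.exists_right_inv
    have h1 : ((2 : ℤ) : AlgebraicClosure ℚ) * ((n : ℤ) : AlgebraicClosure ℚ) = 1 := by
      have := congrArg Subtype.val hm
      simpa [l₀] using this
    have h2 : (2 : ℤ) * n = 1 := by exact_mod_cast h1
    omega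
  obtain ⟨A, -, hA⟩ := Ideal.image_subset_nonunits_valuationSubring _ hI
  refine ⟨A, ?_⟩
  apply hA
  exact ⟨l₀, Ideal.subset_span rfl, rfl⟩

variable {K : Type*} [Field K] [Algebra ℚ K] {Γ₀ : Type*} [LinearOrderedCommGroupWithZero Γ₀]
  (v : Valuation K Γ₀)

/-- Odd integers are units for a valuation with `v 2 < 1`. -/
theorem val_intCast_eq_one_of_odd (h2 : v (2 : K) < 1) {n : ℤ} (hn : ¬ (2 : ℤ) ∣ n) :
    v (n : K) = 1 := by
  refine le_antisymm (val_intCast_le_one v n) ?_
  by_contra hlt
  rw [not_le] at hlt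
  obtain ⟨k, hk⟩ : ∃ k : ℤ, n = 2 * k + 1 := by
    have : n % 2 = 1 := by omega
    exact ⟨n / 2, by omega⟩
  have h1 : (1 : K) = (n : K) - 2 * (k : K) := by
    rw [hk]; push_cast; ring
  have h3 : v ((2 : K) * (k : K)) < 1 := by
    rw [map_mul]
    calc v (2 : K) * v (k : K) ≤ v (2 : K) * 1 := by
          gcongr
          exact val_intCast_le_one v k
      _ = v (2 : K) := mul_one _
      _ < 1 := h2
  have h4 : v ((n : K) - 2 * (k : K)) < 1 :=
    lt_of_le_of_lt (Valuation.map_sub v _ _) (max_lt hlt h3)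
  rw [← h1, map_one] at h4
  exact lt_irrefl _ h4

/-- A rational number with negative `2`-adic valuation has `v r > 1`. -/
theorem one_lt_val_of_padicValRat_neg (h2 : v (2 : K) < 1) (r : ℚ) (hr : padicValRat 2 r < 0) :
    1 < v (algebraMap ℚ K r) := by
  haveI : Fact (Nat.Prime 2) := ⟨Nat.prime_two⟩
  have hden0 : r.den ≠ 0 := r.den_nz
  have hval : 1 ≤ padicValNat 2 r.den := by
    have h := hr
    rw [padicValRat] at h
    have h0 : (0 : ℤ) ≤ padicValInt 2 r.num := by positivity
    omega
  have hdvd : 2 ∣ r.den := dvd_of_one_le_padicValNat hval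
  have hnum : ¬ (2 : ℤ) ∣ r.num := by
    intro hd
    have hc := r.reduced
    have h2n : 2 ∣ r.num.natAbs := by
      have := Int.natAbs_dvd_natAbs.mpr hd
      simpa using this
    have := Nat.dvd_gcd h2n hdvd
    rw [Nat.Coprime] at hc
    rw [hc] at this
    omega
  have hvnum : v ((r.num : ℤ) : K) = 1 := val_intCast_eq_one_of_odd v h2 hnum
  obtain ⟨m, hm⟩ := hdvd
  have hdenK : (r.den : K) ≠ 0 := by
    have : CharZero K := algebraRat.charZero K
    exact_mod_cast hden0
  have hvden : v (r.den : K) < 1 := by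
    rw [hm]
    push_cast
    rw [map_mul]
    calc v (2 : K) * v (m : K) ≤ v (2 : K) * 1 := by
          gcongr
          exact val_natCast_le_one v m
      _ = v (2 : K) := mul_one _
      _ < 1 := h2
  have hvden0 : v (r.den : K) ≠ 0 := (Valuation.ne_zero_iff v).mpr hdenK
  have hr' : algebraMap ℚ K r = ((r.num : ℤ) : K) / (r.den : K) := by
    rw [eq_ratCast, Rat.cast_def]
  rw [hr', map_div₀, hvnum, one_div]
  exact (one_lt_inv₀ (zero_lt_iff.mpr hvden0)).mpr hvden

end TwoAdic

/-! ## Bridge between `eval2` (helper962) and `ev`, `ev0` (helper602) -/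

section Bridge

variable (K : Type*) {F : Type*} [Field K] [Field F] [Algebra K F]

/-- `Φ` with coefficients in `K`. -/
def phiK (Φ : ℤ[X][X]) : K[X][X] := Φ.map (Polynomial.mapRingHom (Int.castRingHom K))

variable {K}

theorem ev_phiK (Φ : ℤ[X][X]) (x y : F) : ev (K := K) x y (phiK K Φ) = eval2 Φ x y := by
  unfold ev phiK eval2
  rw [coe_eval₂RingHom, Polynomial.eval₂_map]
  congr 1
  apply Polynomial.ringHom_ext
  · intro n; simp
  · simp

theorem ev0_phiK (Φ : ℤ[X][X]) (a b : K) : ev0 a b (phiK K Φ) = eval2 Φ a b := by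
  unfold ev0 phiK eval2
  rw [coe_eval₂RingHom, Polynomial.eval₂_map]
  congr 1
  apply Polynomial.ringHom_ext
  · intro n; simp
  · simp

theorem derivative_phiK (Φ : ℤ[X][X]) : derivative (phiK K Φ) = phiK K (derivative Φ) := by
  unfold phiK
  rw [Polynomial.derivative_map]

/-- A relation between `x` and `y` holds at the centre of a place. -/
theorem ev0_eq_zero_of_isCentredAt {P : Place K F} {x y : F} {a b : K}
    (h : IsCentredAt P x y a b) {G : K[X][X]} (hG : ev x y G = 0) : ev0 a b G = 0 := by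
  by_contra hne
  exact (h.ev_unit hne).1 hG

end Bridge

section Main

variable (p : ℕ) [NeZero p]

theorem isCentredAt_of_hasValueAt
    {P : Place (AlgebraicClosure ℚ) (modularFunctionFieldBar p)}
    {x y : modularFunctionFieldBar p} {a b : AlgebraicClosure ℚ}
    (hx : HasValueAt P x a) (hy : HasValueAt P y b) : IsCentredAt P x y a b := by
  have key : ∀ (z : modularFunctionFieldBar p) (c : AlgebraicClosure ℚ), HasValueAt P z c →
      z - algebraMap (AlgebraicClosure ℚ) (modularFunctionFieldBar p) c ∈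
        P.toValuationSubring.nonunits := by
    intro z c hz
    unfold HasValueAt at hz
    have hne : z - algebraMap (AlgebraicClosure ℚ) (modularFunctionFieldBar p) c ≠ 0 := by
      intro h0
      rw [h0, Place.ord_zero] at hz
      exact lt_irrefl _ hz
    exact (S24.FF.ord_pos_iff_mem_nonunits P hne).mp hz
  exact ⟨key x a hx, key y b hy⟩

theorem coe_jBar_eq : ((jBar p : modularFunctionFieldBar p) : LaurentSeries (AlgebraicClosure ℚ)) =
    jqModC (AlgebraicClosure ℚ) := by
  rw [coe_jBar, coeffEmb, ← jqModC_rat, coeffMap_jqModC]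

theorem coe_jNBar_eq :
    ((jNBar p : modularFunctionFieldBar p) : LaurentSeries (AlgebraicClosure ℚ)) =
      qExpand (AlgebraicClosure ℚ) p (jqModC (AlgebraicClosure ℚ)) := by
  rw [coe_jNBar, coeffEmb, coeffMap_qExpand, ← jqModC_rat, coeffMap_jqModC]

/-- The two relations `Φ(j, j_p) = 0 = Φ(j_p, j)` in the function field. -/
theorem eval2_jBar_jNBar (hp : p.Prime) :
    ∃ Φ : ℤ[X][X], IsModularShape p Φ ∧ eval2 Φ (jBar p) (jNBar p) = 0 ∧
      eval2 Φ (jNBar p) (jBar p) = 0 := by
  obtain ⟨Φ, hshape, hrel⟩ := Fermat.Agent.S15.H386.exists_isModularShape.{0} p hp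
  obtain ⟨hrel1, hrel2⟩ := hrel (AlgebraicClosure ℚ) 1
  rw [qExpand_one_apply, qExpand_congr (one_mul p)] at hrel1 hrel2
  refine ⟨Φ, hshape, ?_, ?_⟩
  · rw [← Fermat.Agent.S15.H386.eval2_eq_zero_iff_map
      (algebraMap (modularFunctionFieldBar p) (LaurentSeries (AlgebraicClosure ℚ)))]
    have h1 : algebraMap (modularFunctionFieldBar p) (LaurentSeries (AlgebraicClosure ℚ))
        (jBar p) = jqModC (AlgebraicClosure ℚ) := coe_jBar_eq p
    have h2 : algebraMap (modularFunctionFieldBar p) (LaurentSeries (AlgebraicClosure ℚ))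
        (jNBar p) = qExpand (AlgebraicClosure ℚ) p (jqModC (AlgebraicClosure ℚ)) :=
      coe_jNBar_eq p
    rw [h1, h2]
    exact hrel1
  · rw [← Fermat.Agent.S15.H386.eval2_eq_zero_iff_map
      (algebraMap (modularFunctionFieldBar p) (LaurentSeries (AlgebraicClosure ℚ)))]
    have h1 : algebraMap (modularFunctionFieldBar p) (LaurentSeries (AlgebraicClosure ℚ))
        (jBar p) = jqModC (AlgebraicClosure ℚ) := coe_jBar_eq p
    have h2 : algebraMap (modularFunctionFieldBar p) (LaurentSeries (AlgebraicClosure ℚ))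
        (jNBar p) = qExpand (AlgebraicClosure ℚ) p (jqModC (AlgebraicClosure ℚ)) :=
      coe_jNBar_eq p
    rw [h1, h2]
    exact hrel2

/-- **MOD-A2**, general form: uniqueness of the place with values `(a, a')` as soon as `a` is not
integral for some valuation of `ℚ̄`. -/
theorem place_unique_of_one_lt_val (hp : p.Prime) {Γ₀ : Type*}
    [LinearOrderedCommGroupWithZero Γ₀] (v : Valuation (AlgebraicClosure ℚ) Γ₀)
    {a a' : AlgebraicClosure ℚ} (ha : 1 < v a)
    {P P' : Place (AlgebraicClosure ℚ) (modularFunctionFieldBar p)}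
    (hP1 : HasValueAt P (jBar p) a) (hP2 : HasValueAt P (jNBar p) a')
    (hP'1 : HasValueAt P' (jBar p) a) (hP'2 : HasValueAt P' (jNBar p) a') : P = P' := by
  obtain ⟨Φ, hshape, hxy, hyx⟩ := eval2_jBar_jNBar p hp
  have hc : IsCentredAt P (jBar p) (jNBar p) a a' := isCentredAt_of_hasValueAt p hP1 hP2
  have hc' : IsCentredAt P' (jBar p) (jNBar p) a a' := isCentredAt_of_hasValueAt p hP'1 hP'2
  have hcs : IsCentredAt P (jNBar p) (jBar p) a' a := ⟨hc.hy, hc.hx⟩
  have hcs' : IsCentredAt P' (jNBar p) (jBar p) a' a := ⟨hc'.hy, hc'.hx⟩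
  have hrelxy : ev (K := AlgebraicClosure ℚ) (jBar p) (jNBar p) (phiK (AlgebraicClosure ℚ) Φ) = 0 := by
    rw [ev_phiK]; exact hxy
  have hrelyx : ev (K := AlgebraicClosure ℚ) (jNBar p) (jBar p) (phiK (AlgebraicClosure ℚ) Φ) = 0 := by
    rw [ev_phiK]; exact hyx
  have h0xy : eval2 Φ a a' = 0 := by
    rw [← ev0_phiK]; exact ev0_eq_zero_of_isCentredAt hc hrelxy
  have h0yx : eval2 Φ a' a = 0 := by
    rw [← ev0_phiK]; exact ev0_eq_zero_of_isCentredAt hcs hrelyx
  rcases val_root_of_isModularShape v hp.pos hshape ha h0xy with hv | hv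
  · have hs := simple_root_of_isModularShape v hp.one_lt hshape ha h0xy hv
    have hΨ : IsSimplePoint (jBar p) (jNBar p) a a' (phiK (AlgebraicClosure ℚ) Φ) :=
      ⟨hrelxy, by rw [ev0_phiK]; exact h0xy, by rw [derivative_phiK, ev0_phiK]; exact hs⟩
    exact hc.unique hΨ (exists_ev_of_adjoin_eq_top (adjoin_jBar_jNBar_eq_top p hp)) hc'
  · have hva' : 1 < v a' := one_lt_of_pow_eq ha hv
    have hs := simple_root_of_isModularShape v hp.one_lt hshape hva' h0yx hv.symm
    have hΨ : IsSimplePoint (jNBar p) (jBar p) a' a (phiK (AlgebraicClosure ℚ) Φ) :=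
      ⟨hrelyx, by rw [ev0_phiK]; exact h0yx, by rw [derivative_phiK, ev0_phiK]; exact hs⟩
    exact hcs.unique hΨ (exists_ev_of_adjoin_eq_top (adjoin_jNBar_jBar_eq_top p hp)) hcs'

end Main

/-- **MOD-A2.** -/
theorem placeUnique : PlaceUniqueStatement := by
  intro p _ hp _ r hr a' P P' hP1 hP2 hP'1 hP'2
  obtain ⟨A, hA⟩ := exists_valuationSubring_two
  have h2 : A.valuation (2 : AlgebraicClosure ℚ) < 1 :=
    (ValuationSubring.mem_nonunits_iff A).mp hA
  have hvr := one_lt_val_of_padicValRat_neg A.valuation h2 r hr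
  exact place_unique_of_one_lt_val p hp A.valuation hvr hP1 hP2 hP'1 hP'2

end Fermat.Agent.S15.H542
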