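import Mathlib
import Fermat.Prelude.Def_EllipticCurve_ZeroComponentAt
import Fermat.Prelude.Def_FLTPrelim_Ramification
import Fermat.Prelude.Def_ModularCurve_ArithmeticGalois

/-!
# S15, piece MOD (architect helper542): the moduli place of `(E, ⟨Q⟩)` on `X₀(p)`

INTERFACE FILE (definitions and target statements only, no proofs).

* `veluCurve W Q p` : Vélu's model of `E / ⟨Q⟩` for a point `Q` of odd order `p`
  (`a₁' = a₁, a₂' = a₂, a₃' = a₃, a₄' = a₄ - 5 t, a₆' = a₆ - b₂ t - 7 w`,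
  `t = ∑ (6 x² + b₂ x + b₄)`, `w = ∑ (u + x t)`, `u = 4 x³ + b₂ x² + 2 b₄ x + b₆`,
  sums over the points `k • Q`, `1 ≤ k ≤ (p - 1) / 2`).
* `jInv W = c₄³ / Δ`.
* `jBar p`, `jNBar p` : the functions `j(q)`, `j(q^p)` in the function field of `X₀(p)` over `ℚ̄`.
* `ModuliPlaceStatement` : **the MOD node** consumed by TOP / COMPAT.
* `IsModularPair p a a'` : `(a, a')` is a point of the plane model `{G(j, j_p) = 0}` of `X₀(p)`.
* sub-statements `PlaceOfModularPairStatement` (MOD-A1), `PlaceUniqueStatement` (MOD-A2),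
  `VeluModularPairStatement` (MOD-B), `VeluRationalStatement` (MOD-V).
-/

set_option autoImplicit false

noncomputable section

open WeierstrassCurve AlgebraicCurve ModularCurve
open scoped WeierstrassCurve.Affine

namespace Fermat.Agent.S15.H542

/-! ## Vélu's formulas -/

section Velu

variable {K : Type*} [Field K]

/-- The `x`-coordinate of a point (`0` at the point at infinity). -/
def xOf {W : WeierstrassCurve.Affine K} : W.Point → K
  | .zero => 0
  | .some x _ _ => x

/-- The `y`-coordinate of a point (`0` at the point at infinity). -/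
def yOf {W : WeierstrassCurve.Affine K} : W.Point → K
  | .zero => 0
  | .some _ y _ => y

/-- Vélu's `t_Q = 6 x² + b₂ x + b₄` (for a point which is not of order `2`). -/
def veluT1 (W : WeierstrassCurve K) (x : K) : K := 6 * x ^ 2 + W.b₂ * x + W.b₄

/-- Vélu's `u_Q = 4 x³ + b₂ x² + 2 b₄ x + b₆ = (2 y + a₁ x + a₃)²`. -/
def veluU1 (W : WeierstrassCurve K) (x : K) : K :=
  4 * x ^ 3 + W.b₂ * x ^ 2 + 2 * W.b₄ * x + W.b₆

variable [DecidableEq K]

/-- Vélu's `t = ∑_{k = 1}^{(p-1)/2} t_{kQ}`. -/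
def veluT (W : WeierstrassCurve K) (Q : W.toAffine.Point) (p : ℕ) : K :=
  ∑ k ∈ Finset.Icc 1 ((p - 1) / 2), veluT1 W (xOf (k • Q))

/-- Vélu's `w = ∑_{k = 1}^{(p-1)/2} (u_{kQ} + x_{kQ} t_{kQ})`. -/
def veluW (W : WeierstrassCurve K) (Q : W.toAffine.Point) (p : ℕ) : K :=
  ∑ k ∈ Finset.Icc 1 ((p - 1) / 2),
    (veluU1 W (xOf (k • Q)) + xOf (k • Q) * veluT1 W (xOf (k • Q)))

/-- Vélu's Weierstrass model of the quotient `E / ⟨Q⟩`, `Q` of odd order `p`. -/
def veluCurve (W : WeierstrassCurve K) (Q : W.toAffine.Point) (p : ℕ) : WeierstrassCurve K where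
  a₁ := W.a₁
  a₂ := W.a₂
  a₃ := W.a₃
  a₄ := W.a₄ - 5 * veluT W Q p
  a₆ := W.a₆ - W.b₂ * veluT W Q p - 7 * veluW W Q p

/-- The `j`-invariant `c₄³ / Δ` (junk value `0` if `Δ = 0`). -/
def jInv (W : WeierstrassCurve K) : K := W.c₄ ^ 3 / W.Δ

end Velu

/-! ## The functions `j`, `j_p` on `X₀(p)` over `ℚ̄` -/

section Functions

variable (N : ℕ) [NeZero N]

/-- `j(q)` as an element of the function field of `X₀(N)` over `ℚ̄`. -/
def jBar : modularFunctionFieldBar N :=
  ⟨coeffEmb (AlgebraicClosure ℚ) jq,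
    coeffEmb_mem_laurentBaseChange (AlgebraicClosure ℚ) (modularFunctionField_le_full N (jq_mem N))⟩

/-- `j(q^N)` as an element of the function field of `X₀(N)` over `ℚ̄`. -/
def jNBar : modularFunctionFieldBar N :=
  ⟨coeffEmb (AlgebraicClosure ℚ) (qExpand ℚ N jq),
    coeffEmb_mem_laurentBaseChange (AlgebraicClosure ℚ) (jqd_mem_full N dvd_rfl)⟩

/-- `(a, a')` lies on the plane model of `X₀(N)`: every polynomial relation over `ℚ` between the
`q`-series `j(q)` and `j(q^N)` vanishes at `(a, a')`. -/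
def IsModularPair {K : Type*} [Field K] [Algebra ℚ K] (a a' : K) : Prop :=
  ∀ G : MvPolynomial (Fin 2) ℚ,
    MvPolynomial.aeval ![jq, qExpand ℚ N jq] G = 0 → MvPolynomial.aeval ![a, a'] G = 0

/-- The place `P` takes the value `a` at the function `f`. -/
def HasValueAt {N : ℕ} (P : Place (AlgebraicClosure ℚ) (modularFunctionFieldBar N))
    (f : modularFunctionFieldBar N) (a : AlgebraicClosure ℚ) : Prop :=
  0 < P.ord (f - algebraMap (AlgebraicClosure ℚ) (modularFunctionFieldBar N) a)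

/-- `P` is fixed by the arithmetic Galois action. -/
def IsGaloisFixedPlace {N : ℕ} (P : Place (AlgebraicClosure ℚ) (modularFunctionFieldBar N)) :
    Prop :=
  ∀ σ : AlgebraicClosure ℚ ≃ₐ[ℚ] AlgebraicClosure ℚ,
    arithmeticGalois (modularFunctionFieldFull N) σ • P = P

end Functions

/-! ## The MOD node -/

/-- The curve `E = W ⊗ ℚ̄` of the frozen statement S15. -/
abbrev curveBar (W : WeierstrassCurve ℤ) : WeierstrassCurve (AlgebraicClosure ℚ) :=
  (W.map (Int.castRingHom ℚ))⁄(AlgebraicClosure ℚ)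

/-- **MOD.**  A rational point `Q` of prime order `p ≥ 5` on `E/ℚ` (non-integral `j` at `2`) gives a
Galois-fixed place `P_x` of the function field of `X₀(p)` over `ℚ̄` with `j(P_x) = j(E)` and
`j_p(P_x) = j(E/⟨Q⟩)` (Vélu model); `E/⟨Q⟩` is nonsingular. -/
def ModuliPlaceStatement : Prop :=
  ∀ (p : ℕ) [NeZero p] (_hp : p.Prime) (_hp5 : 5 ≤ p)
    (W : WeierstrassCurve ℤ) (_hΔ : W.Δ ≠ 0)
    (Q : (curveBar W).toAffine.Point)
    (_hQfix : ∀ σ : AlgebraicClosure ℚ ≃ₐ[ℚ] AlgebraicClosure ℚ, σ • Q = Q)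
    (_hQord : addOrderOf Q = p)
    (_h2Δ : (2 : ℤ) ∣ W.Δ) (_h2c₄ : ¬ (2 : ℤ) ∣ W.c₄),
    (veluCurve (curveBar W) Q p).Δ ≠ 0 ∧
    (∃ r : ℚ, algebraMap ℚ (AlgebraicClosure ℚ) r = jInv (veluCurve (curveBar W) Q p)) ∧
    ∃ P : Place (AlgebraicClosure ℚ) (modularFunctionFieldBar p),
      IsGaloisFixedPlace P ∧
      HasValueAt P (jBar p) (jInv (curveBar W)) ∧
      HasValueAt P (jNBar p) (jInv (veluCurve (curveBar W) Q p))

/-! ## Sub-statements -/

/-- **MOD-V** (algebra).  Vélu's curve of a Galois-fixed point is defined over `ℚ`: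
its `j`-invariant is rational. -/
def VeluRationalStatement : Prop :=
  ∀ (p : ℕ) (W : WeierstrassCurve ℤ)
    (Q : (curveBar W).toAffine.Point)
    (_hQfix : ∀ σ : AlgebraicClosure ℚ ≃ₐ[ℚ] AlgebraicClosure ℚ, σ • Q = Q),
    ∃ r : ℚ, algebraMap ℚ (AlgebraicClosure ℚ) r = jInv (veluCurve (curveBar W) Q p)

/-- **MOD-A1** (function fields).  Every point of the plane model lifts to a place. -/
def PlaceOfModularPairStatement : Prop :=
  ∀ (p : ℕ) [NeZero p] (_hp : p.Prime) (a a' : AlgebraicClosure ℚ),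
    IsModularPair p a a' →
    ∃ P : Place (AlgebraicClosure ℚ) (modularFunctionFieldBar p),
      HasValueAt P (jBar p) a ∧ HasValueAt P (jNBar p) a'

/-- **MOD-A2** (function fields).  Above a rational `j`-value which is not `2`-integral the
place with given `(j, j_p)`-values is unique.  (The discriminant of `Φ_p(X, j)` in `X` is a
polynomial in `j` with integer coefficients and leading coefficient `± p ^ p`.) -/
def PlaceUniqueStatement : Prop :=
  ∀ (p : ℕ) [NeZero p] (_hp : p.Prime) (_hp2 : p ≠ 2) (r : ℚ) (_hr : padicValRat 2 r < 0)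
    (a' : AlgebraicClosure ℚ)
    (P P' : Place (AlgebraicClosure ℚ) (modularFunctionFieldBar p)),
    HasValueAt P (jBar p) (algebraMap ℚ (AlgebraicClosure ℚ) r) → HasValueAt P (jNBar p) a' →
    HasValueAt P' (jBar p) (algebraMap ℚ (AlgebraicClosure ℚ) r) → HasValueAt P' (jNBar p) a' →
    P = P'

/-- **MOD-B** (the bridge: complex uniformisation).  Over a field `K` of characteristic `0`
which embeds into `ℂ`: if `Q` has exact order `p` (odd prime) on the elliptic curve `E`, then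
Vélu's curve is nonsingular and `(j(E), j(E/⟨Q⟩))` lies on the plane model of `X₀(p)`. -/
def VeluModularPairStatement : Prop :=
  ∀ (p : ℕ) [NeZero p] (_hp : p.Prime) (_hp2 : p ≠ 2)
    (E : WeierstrassCurve (AlgebraicClosure ℚ)) (_hΔ : E.Δ ≠ 0)
    (Q : E.toAffine.Point) (_hQord : addOrderOf Q = p),
    (veluCurve E Q p).Δ ≠ 0 ∧ IsModularPair p (jInv E) (jInv (veluCurve E Q p))

end Fermat.Agent.S15.H542
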