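import Fermat.Agent.S15.H542.VeluDisc
import Fermat.Agent.S15.H782.UValFinal
import Fermat.Agent.S12.H651.VeluRed

/-!
# S15, node GEO, piece DISC (helper542): the residue disc of the moduli point

`W : WeierstrassCurve ℤ`, `E = curveBar W`, `Q ∈ E(ℚ̄)` of prime order `p > 5`,
`E' = veluCurve E Q p`, `A` a valuation subring of `ℚ̄` over a prime `ℓ ≠ p` of multiplicative
reduction (`ℓ ∣ Δ`, `ℓ ∤ c₄`).  Then `1 < v_A(j(E))` and

* `val_jInv_velu_of_inZeroComponentAt`     : `Q ∈ E⁰`  ⟹  `v_A(j(E')) = v_A(j(E)) ^ p`;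
* `val_jInv_velu_of_not_inZeroComponentAt` : `Q ∉ E⁰`  ⟹  `v_A(j(E')) ^ p = v_A(j(E))`.

(`(j(E), j(E'))` is in the residue disc of the cusp `∞`, resp. `0`, of `X₀(p)`.)

Ingredients: `velu_disc` (`Δ(E') ψ⁴ = Δ(E)^p`), helper782's `unitU` valuations,
helper651's `val_c₄_veluCurve`.
-/

set_option autoImplicit false

noncomputable section

open WeierstrassCurve
open scoped WeierstrassCurve.Affine

namespace Fermat.Agent.S15.H542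

open Fermat.Agent.S15.H782 Fermat.Agent.Lib.Red.H290 Fermat.Agent.S15.H242

section

variable {W : WeierstrassCurve ℤ} {A : ValuationSubring (AlgebraicClosure ℚ)}

/-- The two conventions for `∏ ψ₂(kQ)` agree for a point of prime order. -/
theorem psiProdOf_eq_psiProd {p : ℕ} (hp : p.Prime) (E : WeierstrassCurve (AlgebraicClosure ℚ))
    (Q : E.toAffine.Point) (hord : addOrderOf Q = p) :
    psiProdOf E Q p = psiProd E.toAffine Q p := by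
  unfold psiProdOf psiProd
  refine Finset.prod_congr rfl fun k hk => ?_
  rw [Finset.mem_Ioo] at hk
  have hne : k • Q ≠ 0 := by
    intro h0
    have hd : p ∣ k := by
      rw [← hord]
      exact addOrderOf_dvd_of_nsmul_eq_zero h0
    have := Nat.le_of_dvd hk.1 hd
    omega
  rcases hkQ : k • Q with _ | ⟨x, y, hxy⟩
  · exact absurd hkQ hne
  · rfl

/-- `Δ(E') · U = p¹² · Δ(E)`. -/
theorem Δ_velu_mul_unitU {p : ℕ} (hp : p.Prime) (hp2 : p ≠ 2) (hΔ : W.Δ ≠ 0)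
    {Q : PtsBar W} (hord : addOrderOf Q = p) :
    (veluCurve (curveBar W) Q p).Δ * unitU W p Q =
      (p : AlgebraicClosure ℚ) ^ 12 * ((W.Δ : ℤ) : AlgebraicClosure ℚ) := by
  have hΔ' : ((W.Δ : ℤ) : AlgebraicClosure ℚ) ≠ 0 := Int.cast_ne_zero.mpr hΔ
  have hΔbar : (curveBar W).Δ ≠ 0 := by
    rw [show (curveBar W).Δ = ((W.Δ : ℤ) : AlgebraicClosure ℚ) from Δ_bar_eq W]
    exact hΔ'
  have h1 := velu_disc hp hp2 (curveBar W) hΔbar Q hord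
  rw [psiProdOf_eq_psiProd hp _ Q hord,
    show (curveBar W).Δ = ((W.Δ : ℤ) : AlgebraicClosure ℚ) from Δ_bar_eq W] at h1
  have h2 := unitU_mul_Δ_pow W hΔ p Q
  have h0 : ((W.Δ : ℤ) : AlgebraicClosure ℚ) ^ (p - 1) ≠ 0 := pow_ne_zero _ hΔ'
  apply mul_right_cancel₀ h0
  have hpow : ((W.Δ : ℤ) : AlgebraicClosure ℚ) ^ p =
      ((W.Δ : ℤ) : AlgebraicClosure ℚ) * ((W.Δ : ℤ) : AlgebraicClosure ℚ) ^ (p - 1) := by
    rw [← pow_succ', Nat.sub_add_cancel hp.one_le]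
  calc (veluCurve (curveBar W) Q p).Δ * unitU W p Q * ((W.Δ : ℤ) : AlgebraicClosure ℚ) ^ (p - 1)
      = (veluCurve (curveBar W) Q p).Δ *
          (unitU W p Q * ((W.Δ : ℤ) : AlgebraicClosure ℚ) ^ (p - 1)) := by ring
    _ = (p : AlgebraicClosure ℚ) ^ 12 *
          ((veluCurve (curveBar W) Q p).Δ * psiProd _ Q p ^ 4) := by rw [h2]; ring
    _ = (p : AlgebraicClosure ℚ) ^ 12 * ((W.Δ : ℤ) : AlgebraicClosure ℚ) ^ p := by rw [h1]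
    _ = (p : AlgebraicClosure ℚ) ^ 12 * ((W.Δ : ℤ) : AlgebraicClosure ℚ) *
          ((W.Δ : ℤ) : AlgebraicClosure ℚ) ^ (p - 1) := by
        rw [hpow]
        ring

/-- `v_A(Δ(E')) · v_A(U) = v_A(Δ(E))` at a place over `ℓ ≠ p`. -/
theorem val_Δ_velu_mul_val_unitU {p : ℕ} (hp : p.Prime) (hp2 : p ≠ 2) (hΔ : W.Δ ≠ 0)
    {Q : PtsBar W} (hord : addOrderOf Q = p) {ℓ : ℕ} (hℓ : ℓ.Prime) (hℓp : ℓ ≠ p)
    (hA : A.LiesOverPrime ℓ) :
    A.valuation (veluCurve (curveBar W) Q p).Δ * A.valuation (unitU W p Q) =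
      A.valuation ((W.Δ : ℤ) : AlgebraicClosure ℚ) := by
  have hv : A.valuation ((p : ℕ) : AlgebraicClosure ℚ) = 1 := val_natCast_eq_one A hA hℓ hp hℓp
  rw [← map_mul, Δ_velu_mul_unitU hp hp2 hΔ hord, map_mul, map_pow, hv, one_pow, one_mul]

/-- `c₄(E')` is a unit at a place of multiplicative reduction over `ℓ ≠ p`. -/
theorem val_c₄_velu {p : ℕ} (hp : p.Prime) (hp5 : 5 < p)
    {Q : PtsBar W} (hord : addOrderOf Q = p) {ℓ : ℕ} (hℓ : ℓ.Prime) (hℓp : ℓ ≠ p)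
    (hℓΔ : (ℓ : ℤ) ∣ W.Δ) (hℓc₄ : ¬ (ℓ : ℤ) ∣ W.c₄) (hA : A.LiesOverPrime ℓ) :
    A.valuation (veluCurve (curveBar W) Q p).c₄ = 1 := by
  classical
  have hv : A.valuation ((p : ℕ) : AlgebraicClosure ℚ) = 1 := val_natCast_eq_one A hA hℓ hp hℓp
  have hred := isRedOf_int A W (IsLocalRing.residue A)
  have hφ := kerMax_residue A
  have hsq : ∀ a : AlgebraicClosure ℚ, ∃ b : AlgebraicClosure ℚ, b ^ 2 = a := fun a =>
    IsAlgClosed.exists_pow_nat_eq a (by norm_num)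
  have hΔκ : (W⁄(IsLocalRing.ResidueField A)).Δ = 0 := by
    show (W.map (algebraMap ℤ (IsLocalRing.ResidueField A))).Δ = 0
    rw [WeierstrassCurve.map_Δ]
    have h1 : rd A (IsLocalRing.residue A) ((W.Δ : ℤ) : AlgebraicClosure ℚ) =
        ((W.Δ : ℤ) : IsLocalRing.ResidueField A) := rd_intCast A _ _
    have h2 := rd_eq_zero_of_lt (φ := IsLocalRing.residue A) hφ (val_Δ_lt_one hℓΔ hA)
    rw [h1] at h2
    simpa using h2
  have hcκ : (W⁄(IsLocalRing.ResidueField A)).c₄ ≠ 0 := by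
    show (W.map (algebraMap ℤ (IsLocalRing.ResidueField A))).c₄ ≠ 0
    rw [WeierstrassCurve.map_c₄]
    have h1 : rd A (IsLocalRing.residue A) ((W.c₄ : ℤ) : AlgebraicClosure ℚ) =
        ((W.c₄ : ℤ) : IsLocalRing.ResidueField A) := rd_intCast A _ _
    have h2 := (rd_ne_zero_iff (φ := IsLocalRing.residue A) hφ (intCast_mem A W.c₄)).mpr
      (val_intCast_eq_one A hA hℓ hℓc₄)
    rw [h1] at h2
    simpa using h2
  exact Fermat.Agent.S12.H651.val_c₄_veluCurve hred hφ hsq hp hp5 hv hord hΔκ hcκ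

/-- `v_A(j(E)) = v_A(Δ)⁻¹`. -/
theorem val_jInv_curveBar {ℓ : ℕ} (hℓ : ℓ.Prime) (hℓc₄ : ¬ (ℓ : ℤ) ∣ W.c₄)
    (hA : A.LiesOverPrime ℓ) :
    A.valuation (jInv (curveBar W)) = (A.valuation ((W.Δ : ℤ) : AlgebraicClosure ℚ))⁻¹ := by
  unfold jInv
  rw [show (curveBar W).Δ = ((W.Δ : ℤ) : AlgebraicClosure ℚ) from Δ_bar_eq W,
    show (curveBar W).c₄ = ((W.c₄ : ℤ) : AlgebraicClosure ℚ) from c₄_bar_eq W]
  exact val_j_of_mult hℓ hℓc₄ hA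

/-- `1 < v_A(j(E))` at a multiplicative place. -/
theorem one_lt_val_jInv_curveBar (hΔ : W.Δ ≠ 0) {ℓ : ℕ} (hℓ : ℓ.Prime) (hℓΔ : (ℓ : ℤ) ∣ W.Δ)
    (hℓc₄ : ¬ (ℓ : ℤ) ∣ W.c₄) (hA : A.LiesOverPrime ℓ) :
    1 < A.valuation (jInv (curveBar W)) := by
  rw [val_jInv_curveBar hℓ hℓc₄ hA]
  have h0 : 0 < A.valuation ((W.Δ : ℤ) : AlgebraicClosure ℚ) :=
    (Valuation.pos_iff _).mpr (Int.cast_ne_zero.mpr hΔ)
  exact (one_lt_inv₀ h0).mpr (val_Δ_lt_one hℓΔ hA)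

/-- `v_A(j(E')) = v_A(Δ(E'))⁻¹`. -/
theorem val_jInv_velu {p : ℕ} (hp : p.Prime) (hp5 : 5 < p)
    {Q : PtsBar W} (hord : addOrderOf Q = p) {ℓ : ℕ} (hℓ : ℓ.Prime) (hℓp : ℓ ≠ p)
    (hℓΔ : (ℓ : ℤ) ∣ W.Δ) (hℓc₄ : ¬ (ℓ : ℤ) ∣ W.c₄) (hA : A.LiesOverPrime ℓ) :
    A.valuation (jInv (veluCurve (curveBar W) Q p)) =
      (A.valuation (veluCurve (curveBar W) Q p).Δ)⁻¹ := by
  unfold jInv
  rw [map_div₀, map_pow, val_c₄_velu hp hp5 hord hℓ hℓp hℓΔ hℓc₄ hA, one_pow, one_div]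

/-- **DISC, cusp `∞`.**  `Q ∈ E⁰` at a multiplicative place `A ∣ ℓ ≠ p`:
`v_A(j(E/⟨Q⟩)) = v_A(j(E)) ^ p`. -/
theorem val_jInv_velu_of_inZeroComponentAt {p : ℕ} (hp : p.Prime) (hp5 : 5 < p) (hΔ : W.Δ ≠ 0)
    {Q : PtsBar W} (hord : addOrderOf Q = p) {ℓ : ℕ} (hℓ : ℓ.Prime) (hℓp : ℓ ≠ p)
    (hℓΔ : (ℓ : ℤ) ∣ W.Δ) (hℓc₄ : ¬ (ℓ : ℤ) ∣ W.c₄) (hA : A.LiesOverPrime ℓ)
    (hQ0 : W.InZeroComponentAt A Q) :
    A.valuation (jInv (veluCurve (curveBar W) Q p)) = A.valuation (jInv (curveBar W)) ^ p := by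
  have hp2 : p ≠ 2 := by omega
  rw [val_jInv_velu hp hp5 hord hℓ hℓp hℓΔ hℓc₄ hA, val_jInv_curveBar hℓ hℓc₄ hA, inv_pow]
  congr 1
  have h1 := val_Δ_velu_mul_val_unitU (A := A) hp hp2 hΔ hord hℓ hℓp hA
  have h2 := val_unitU_of_inZeroComponentAt hp hp2 hΔ hord hℓ hℓp hA hQ0
  have hpow : A.valuation ((W.Δ : ℤ) : AlgebraicClosure ℚ) ^ p =
      A.valuation ((W.Δ : ℤ) : AlgebraicClosure ℚ) *
        A.valuation ((W.Δ : ℤ) : AlgebraicClosure ℚ) ^ (p - 1) := by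
    rw [← pow_succ', Nat.sub_add_cancel hp.one_le]
  calc A.valuation (veluCurve (curveBar W) Q p).Δ
      = A.valuation (veluCurve (curveBar W) Q p).Δ *
          (A.valuation (unitU W p Q) *
            A.valuation ((W.Δ : ℤ) : AlgebraicClosure ℚ) ^ (p - 1)) := by rw [h2, mul_one]
    _ = A.valuation (veluCurve (curveBar W) Q p).Δ * A.valuation (unitU W p Q) *
            A.valuation ((W.Δ : ℤ) : AlgebraicClosure ℚ) ^ (p - 1) := by rw [mul_assoc]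
    _ = A.valuation ((W.Δ : ℤ) : AlgebraicClosure ℚ) ^ p := by
        rw [h1, hpow]

/-- **DISC, cusp `0`.**  `Q ∉ E⁰` at a multiplicative place `A ∣ ℓ ≠ p`:
`v_A(j(E/⟨Q⟩)) ^ p = v_A(j(E))`. -/
theorem val_jInv_velu_of_not_inZeroComponentAt {p : ℕ} (hp : p.Prime) (hp5 : 5 < p)
    (hΔ : W.Δ ≠ 0) {Q : PtsBar W} (hord : addOrderOf Q = p) {ℓ : ℕ} (hℓ : ℓ.Prime)
    (hℓp : ℓ ≠ p) (hℓΔ : (ℓ : ℤ) ∣ W.Δ) (hℓc₄ : ¬ (ℓ : ℤ) ∣ W.c₄) (hA : A.LiesOverPrime ℓ)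
    (hQ0 : ¬ W.InZeroComponentAt A Q) :
    A.valuation (jInv (veluCurve (curveBar W) Q p)) ^ p = A.valuation (jInv (curveBar W)) := by
  have hp2 : p ≠ 2 := by omega
  rw [val_jInv_velu hp hp5 hord hℓ hℓp hℓΔ hℓc₄ hA, val_jInv_curveBar hℓ hℓc₄ hA, inv_pow]
  congr 1
  have h1 := val_Δ_velu_mul_val_unitU (A := A) hp hp2 hΔ hord hℓ hℓp hA
  have h2 := val_unitU_pow_of_not_inZeroComponentAt hp hp2 hΔ hord hℓ hℓp hℓΔ hℓc₄ hA hQ0
  have hΔ0 : A.valuation ((W.Δ : ℤ) : AlgebraicClosure ℚ) ≠ 0 :=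
    (Valuation.ne_zero_iff _).mpr (Int.cast_ne_zero.mpr hΔ)
  have hpow : A.valuation ((W.Δ : ℤ) : AlgebraicClosure ℚ) ^ p =
      A.valuation ((W.Δ : ℤ) : AlgebraicClosure ℚ) *
        A.valuation ((W.Δ : ℤ) : AlgebraicClosure ℚ) ^ (p - 1) := by
    rw [← pow_succ', Nat.sub_add_cancel hp.one_le]
  have h3 : A.valuation (veluCurve (curveBar W) Q p).Δ ^ p *
      A.valuation ((W.Δ : ℤ) : AlgebraicClosure ℚ) ^ (p - 1) =
      A.valuation ((W.Δ : ℤ) : AlgebraicClosure ℚ) *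
        A.valuation ((W.Δ : ℤ) : AlgebraicClosure ℚ) ^ (p - 1) := by
    rw [← h2, ← mul_pow, h1, h2, hpow]
  exact mul_right_cancel₀ (pow_ne_zero _ hΔ0) h3

end

end Fermat.Agent.S15.H542
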