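import Fermat.Agent.S15.H542.ModNode
import Fermat.Agent.S15.H542.VeluDiscVal
import Fermat.Agent.S15.H602.PlaceGalois
import Fermat.Agent.S15.H482.CuspPoles
import Fermat.Agent.S15.Core.Top

/-!
# S15, node GEO (helper542): the rational class `D = [(P_x) - (0)]` and its residue discs

* `moduliPlace_of_mult` : the MOD node for a curve with SOME multiplicative prime (not
  necessarily `2`): the place `P_x` with `j(P_x) = j(E)`, `j_p(P_x) = j(E/⟨Q⟩)` exists, is unique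
  and Galois-fixed;
* `exists_geoClass` : **the datum `D` of the node GEO**.  For every `W` (`Δ ≠ 0`), every
  Galois-fixed `Q` of prime order `p > 5` and every cusp `0` `P₀` there is a Galois-fixed class
  `D ∈ J₀(p)` such that at EVERY multiplicative place `A ∣ q ≠ p` there is a place `P` with
  `D = [(P) - (P₀)]`, `D + c = [(P) - (∞)]`, `j(P) = a`, `j_p(P) = a'`, `1 < v_A(a)` and
  - `Q ∉ E⁰(A)` ⟹ `v_A(a') ^ p = v_A(a)`   (`P` is in the residue disc of the cusp `0`),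
  - `Q ∈ E⁰(A)` ⟹ `v_A(a') = v_A(a) ^ p`   (`P` is in the residue disc of the cusp `∞`).
-/

set_option autoImplicit false

noncomputable section

open WeierstrassCurve AlgebraicCurve ModularCurve
open scoped WeierstrassCurve.Affine

namespace Fermat.Agent.S15.H542

open Fermat.Agent.S15.H782 Fermat.Agent.S15.H602

/-- **MOD at an arbitrary multiplicative prime**: existence, uniqueness and rationality of the
moduli place. -/
theorem moduliPlace_of_mult (p : ℕ) [NeZero p] (hp : p.Prime) (hp2 : p ≠ 2)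
    (W : WeierstrassCurve ℤ) (hΔ : W.Δ ≠ 0) (Q : (curveBar W).toAffine.Point)
    (hQfix : ∀ σ : AlgebraicClosure ℚ ≃ₐ[ℚ] AlgebraicClosure ℚ, σ • Q = Q)
    (hQord : addOrderOf Q = p)
    {ℓ : ℕ} (hℓ : ℓ.Prime) (hℓΔ : (ℓ : ℤ) ∣ W.Δ) (hℓc₄ : ¬ (ℓ : ℤ) ∣ W.c₄) :
    ∃ P : Place (AlgebraicClosure ℚ) (modularFunctionFieldBar p),
      IsGaloisFixedPlace P ∧
      HasValueAt P (jBar p) (jInv (curveBar W)) ∧
      HasValueAt P (jNBar p) (jInv (veluCurve (curveBar W) Q p)) ∧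
      ∀ P' : Place (AlgebraicClosure ℚ) (modularFunctionFieldBar p),
        HasValueAt P' (jBar p) (jInv (curveBar W)) →
        HasValueAt P' (jNBar p) (jInv (veluCurve (curveBar W) Q p)) → P' = P := by
  obtain ⟨A, hA⟩ := Fermat.Agent.S54.exists_valuationSubring_liesOver ℓ hℓ
  have hv : 1 < A.valuation (jInv (curveBar W)) := one_lt_val_jInv_curveBar hΔ hℓ hℓΔ hℓc₄ hA
  obtain ⟨-, hpair⟩ := Fermat.Agent.S15.H215.veluModularPair p hp hp2 (curveBar W)
    (Δ_curveBar_ne_zero W hΔ) Q hQord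
  obtain ⟨r', hr'⟩ := veluRational p W Q hQfix
  obtain ⟨P, hP1, hP2⟩ := Fermat.Agent.S15.H602.placeOfModularPairStatement p hp _ _ hpair
  have huniq : ∀ P' : Place (AlgebraicClosure ℚ) (modularFunctionFieldBar p),
      HasValueAt P' (jBar p) (jInv (curveBar W)) →
      HasValueAt P' (jNBar p) (jInv (veluCurve (curveBar W) Q p)) → P' = P :=
    fun P' h1 h2 => place_unique_of_one_lt_val p hp A.valuation hv h1 h2 hP1 hP2
  refine ⟨P, ?_, hP1, hP2, huniq⟩
  intro σ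
  apply huniq
  · have hj := jInv_curveBar W
    rw [hj] at hP1 ⊢
    exact hasValueAt_smul_of_rational σ P (jBar p) jq rfl _ hP1
  · rw [← hr'] at hP2 ⊢
    exact hasValueAt_smul_of_rational σ P (jNBar p) (qExpand ℚ p jq) rfl _ hP2

/-- `[(P) - (P₀)] + [(P₀) - (∞)] = [(P) - (∞)]`. -/
theorem isDiffClass_add {N : ℕ} [NeZero N]
    {P P₀ Pi : Place (AlgebraicClosure ℚ) (modularFunctionFieldBar N)} {D c : JZero N}
    (hD : Fermat.Agent.S15.Core.IsDiffClass P P₀ D)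
    (hc : Fermat.Agent.S15.Core.IsDiffClass P₀ Pi c) :
    Fermat.Agent.S15.Core.IsDiffClass P Pi (D + c) := by
  obtain ⟨h1, rfl⟩ := hD
  obtain ⟨h2, rfl⟩ := hc
  have h3 : (Finsupp.single P (1 : ℤ) - Finsupp.single Pi (1 : ℤ) :
      Divisor (AlgebraicClosure ℚ) (modularFunctionFieldBar N)) ∈
        Divisor.degZero (K := AlgebraicClosure ℚ) (F := modularFunctionFieldBar N) := by
    have := (Divisor.degZero (K := AlgebraicClosure ℚ) (F := modularFunctionFieldBar N)).add_mem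
      h1 h2
    simpa using this
  refine ⟨h3, ?_⟩
  rw [← Pic0.mk_add]
  congr 1
  apply Subtype.ext
  simp

/-- **The datum `D` of the node GEO**, with its residue discs. -/
theorem exists_geoClass (p : ℕ) [NeZero p] (hp : p.Prime) (hp5 : 5 < p)
    (W : WeierstrassCurve ℤ) (hΔ : W.Δ ≠ 0) (Q : (curveBar W).toAffine.Point)
    (hQfix : ∀ σ : AlgebraicClosure ℚ ≃ₐ[ℚ] AlgebraicClosure ℚ, σ • Q = Q)
    (hQord : addOrderOf Q = p)
    (P₀ : Place (AlgebraicClosure ℚ) (modularFunctionFieldBar p))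
    (hP₀ : Fermat.Agent.S15.Core.IsCuspZero p P₀) :
    ∃ D : JZero p, (∀ σ : AlgebraicClosure ℚ ≃ₐ[ℚ] AlgebraicClosure ℚ, σ • D = D) ∧
      ∀ q : ℕ, q.Prime → q ≠ p → (q : ℤ) ∣ W.Δ → ¬ (q : ℤ) ∣ W.c₄ →
      ∀ A : ValuationSubring (AlgebraicClosure ℚ), A.LiesOverPrime q →
      ∃ P : Place (AlgebraicClosure ℚ) (modularFunctionFieldBar p),
        Fermat.Agent.S15.Core.IsDiffClass P P₀ D ∧
        HasValueAt P (jBar p) (jInv (curveBar W)) ∧
        HasValueAt P (jNBar p) (jInv (veluCurve (curveBar W) Q p)) ∧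
        1 < A.valuation (jInv (curveBar W)) ∧
        (¬ W.InZeroComponentAt A Q →
          A.valuation (jInv (veluCurve (curveBar W) Q p)) ^ p =
            A.valuation (jInv (curveBar W))) ∧
        (W.InZeroComponentAt A Q →
          A.valuation (jInv (veluCurve (curveBar W) Q p)) =
            A.valuation (jInv (curveBar W)) ^ p) := by
  have hp2 : p ≠ 2 := by omega
  by_cases hex : ∃ ℓ : ℕ, ℓ.Prime ∧ (ℓ : ℤ) ∣ W.Δ ∧ ¬ (ℓ : ℤ) ∣ W.c₄
  · obtain ⟨ℓ, hℓ, hℓΔ, hℓc₄⟩ := hex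
    obtain ⟨P, hPfix, hP1, hP2, -⟩ :=
      moduliPlace_of_mult p hp hp2 W hΔ Q hQfix hQord hℓ hℓΔ hℓc₄
    have hP₀eq : P₀ = Fermat.Agent.S15.H362.cuspZero p :=
      Fermat.Agent.S15.H482.IsCuspZero.eq_cuspZero p hp hP₀
    have hdeg : P.deg = P₀.deg := by
      rw [Fermat.Agent.Lib.FF398.deg_eq_one_FF p P, Fermat.Agent.Lib.FF398.deg_eq_one_FF p P₀]
    refine ⟨ptClass P P₀ hdeg, ?_, ?_⟩
    · intro σ
      refine galois_smul_ptClass_eq_self (modularFunctionFieldFull p) σ hdeg (hPfix σ) ?_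
      rw [hP₀eq]
      exact Fermat.Agent.S15.H362.galois_smul_cuspZero p σ
    · intro q hq hqp hqΔ hqc₄ A hA
      exact ⟨P, ⟨single_sub_single_mem_degZero hdeg, rfl⟩, hP1, hP2,
        one_lt_val_jInv_curveBar hΔ hq hqΔ hqc₄ hA,
        fun hQ0 => val_jInv_velu_of_not_inZeroComponentAt hp hp5 hΔ hQord hq hqp hqΔ hqc₄ hA hQ0,
        fun hQ0 => val_jInv_velu_of_inZeroComponentAt hp hp5 hΔ hQord hq hqp hqΔ hqc₄ hA hQ0⟩
  · refine ⟨0, fun σ => smul_zero (A := JZero p) σ, ?_⟩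
    intro q hq _ hqΔ hqc₄
    exact absurd ⟨q, hq, hqΔ, hqc₄⟩ hex

end Fermat.Agent.S15.H542
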