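import Fermat.Agent.S15.H542.GeoD
import Fermat.Agent.S15.H962.GeoK
import Fermat.Agent.S15.H962.IterRed

/-!
# S15, node GEO-PARTS, leaf (c) = DISC (helper542), on helper962's frozen `discK`

* `geoDisc` : for every `W` (`Δ ≠ 0`), Galois-fixed `Q` of prime order `p > 5`, cusp `0` `P₀` and
  `c = [(P₀) - (∞)]` there is a Galois-fixed `D ∈ J₀(p)` with, at every multiplicative place
  `A ∣ q ≠ p`:  `Q ∉ E⁰(A) → D ∈ discK p A P₀`  and  `Q ∈ E⁰(A) → D + c ∈ discK p A P₀`.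
* `geoParts_of_pieces` : `GeoPartsStatement p` from (a) `PropagationStatement p` and, at each
  multiplicative place, a specialisation map injective on prime-to-`q` torsion which kills
  `discK` ((b) + GE-2 (i)).
* `geoStatement_of_pieces` : the node `Core.GeoStatement p` from the same.
-/

set_option autoImplicit false

noncomputable section

open WeierstrassCurve AlgebraicCurve ModularCurve
open scoped WeierstrassCurve.Affine

namespace Fermat.Agent.S15.H542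

open Fermat.Agent.S15.Core Fermat.Agent.S15.H962

/-- **GEO-PARTS (c), DISC.** -/
theorem geoDisc (p : ℕ) [NeZero p] (hp : p.Prime) (hp5 : 5 < p)
    (W : WeierstrassCurve ℤ) (hΔ : W.Δ ≠ 0)
    (Q : ((W.map (Int.castRingHom ℚ))⁄(AlgebraicClosure ℚ)).Point)
    (hQfix : ∀ σ : AlgebraicClosure ℚ ≃ₐ[ℚ] AlgebraicClosure ℚ, σ • Q = Q)
    (hQord : addOrderOf Q = p)
    (P₀ : Place (AlgebraicClosure ℚ) (modularFunctionFieldBar p)) (c : JZero p)
    (hP₀ : IsCuspZero p P₀) (hc : IsDiffClass P₀ (cuspInfty p) c) :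
    ∃ D : JZero p, (∀ σ : AlgebraicClosure ℚ ≃ₐ[ℚ] AlgebraicClosure ℚ, σ • D = D) ∧
      ∀ q : ℕ, q.Prime → q ≠ p → (q : ℤ) ∣ W.Δ → ¬ (q : ℤ) ∣ W.c₄ →
      ∀ A : ValuationSubring (AlgebraicClosure ℚ), A.LiesOverPrime q →
        (¬ W.InZeroComponentAt A Q → D ∈ discK p A P₀) ∧
        (W.InZeroComponentAt A Q → D + c ∈ discK p A P₀) := by
  obtain ⟨D, hDfix, hD⟩ := exists_geoClass p hp hp5 W hΔ Q hQfix hQord P₀ hP₀
  refine ⟨D, hDfix, fun q hq hqp hqΔ hqc₄ A hA => ?_⟩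
  obtain ⟨P, hPD, hP1, hP2, hv, h0, hInf⟩ := hD q hq hqp hqΔ hqc₄ A hA
  constructor
  · intro hQ0
    exact mem_discK_of_inDiscZero ⟨_, _, hP1, hP2, hv, h0 hQ0⟩ hPD
  · intro hQ0
    exact mem_discK_of_inDiscInfty ⟨_, _, hP1, hP2, hv, hInf hQ0⟩ (isDiffClass_add hPD hc)

/-- **GEO-PARTS from (a) PROPAGATION and (b) IDENT + GE-2 (i)** ((c) DISC is `geoDisc`). -/
theorem geoParts_of_pieces (p : ℕ) [NeZero p] (hp : p.Prime) (hp5 : 5 < p)
    (hprop : PropagationStatement p)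
    (hsp : ∀ q : ℕ, q.Prime → q ≠ p →
      ∀ A : ValuationSubring (AlgebraicClosure ℚ), A.LiesOverPrime q →
      ∀ P₀ : Place (AlgebraicClosure ℚ) (modularFunctionFieldBar p), IsCuspZero p P₀ →
      ∃ (X : Type) (_ : AddCommGroup X) (sp₀ : JZero p →+ X),
        (∀ (m : ℕ) (z : JZero p), ¬ q ∣ m → m • z = 0 → sp₀ z = 0 → z = 0) ∧
        KilledBy p A P₀ sp₀) :
    GeoPartsStatement p := by
  intro W hΔ Q hQfix hQord P₀ c hP₀ hc
  obtain ⟨D, hDfix, hD⟩ := geoDisc p hp hp5 W hΔ Q hQfix hQord P₀ c hP₀ hc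
  refine ⟨D, hDfix, fun q hq hqp hqΔ hqc₄ A hA => ?_⟩
  obtain ⟨X, instX, sp₀, hinj, hkill⟩ := hsp q hq hqp A hA P₀ hP₀
  obtain ⟨h0, hInf⟩ := hD q hq hqp hqΔ hqc₄ A hA
  exact ⟨X, instX, sp₀, discK p A P₀, hinj,
    goodHecke_stable_of_propagation p hprop hp A P₀ hP₀ {q}, hkill, h0, hInf⟩

/-- **The node GEO from (a) and (b) + GE-2 (i).** -/
theorem geoStatement_of_pieces (p : ℕ) [NeZero p] (hp : p.Prime) (hp5 : 5 < p)
    (hprop : PropagationStatement p)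
    (hsp : ∀ q : ℕ, q.Prime → q ≠ p →
      ∀ A : ValuationSubring (AlgebraicClosure ℚ), A.LiesOverPrime q →
      ∀ P₀ : Place (AlgebraicClosure ℚ) (modularFunctionFieldBar p), IsCuspZero p P₀ →
      ∃ (X : Type) (_ : AddCommGroup X) (sp₀ : JZero p →+ X),
        (∀ (m : ℕ) (z : JZero p), ¬ q ∣ m → m • z = 0 → sp₀ z = 0 → z = 0) ∧
        KilledBy p A P₀ sp₀) :
    GeoStatement p :=
  geoStatement_of_geoParts p (geoParts_of_pieces p hp hp5 hprop hsp)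

end Fermat.Agent.S15.H542
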