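import Fermat.Agent.S37.H868.FullC
import Fermat.Agent.S15.H722.LevelP

/-!
# S15 / GEO (b) IDENT, leaf DEG (helper542): a place reduction preserves zeros and poles of `j`

`r : Place L F → Place k F_k` with `IsPlaceReductionAlong A π N r`, `L`, `k` algebraically closed,
the primes dividing `N` invertible in `k`.  The divisors of `1/j` and of `1/j̄` have zero parts of
the same degree `ψ(N)` (`S37.H868`), and `r_* div(1/j) = div(1/j̄)`; hence no cancellation occurs:

* `pos_of_mapDomain_h542` : the abstract conservation lemma on finitely supported functions;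
* `pole_to_pole_jF` : `ord_P j < 0 → ord_{r P} j̄ < 0`;
* `zero_to_zero_jF` : `0 < ord_P j → 0 < ord_{r P} j̄`.
-/

set_option autoImplicit false
set_option synthInstance.maxHeartbeats 400000

noncomputable section

open AlgebraicCurve ModularCurve HahnSeries

namespace Fermat.Agent.S15.H542

section Abstract

variable {α β : Type*}

/-- **Conservation.** If `r_* D = D'` and the positive parts of `D` and `D'` have the same total
mass, then `r` maps the points of positive multiplicity of `D` to such points of `D'`. -/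
theorem pos_of_mapDomain_h542 (r : α → β) (D : α →₀ ℤ) (D' : β →₀ ℤ)
    (hmap : ∀ Q, Finsupp.mapDomain r D Q = D' Q)
    (hsum : ∑ P ∈ D.support, max (D P) 0 = ∑ Q ∈ D'.support, max (D' Q) 0)
    (P : α) (hP : 0 < D P) : 0 < D' (r P) := by
  classical
  -- the fibre sums
  have hfib : ∀ Q, D' Q = ∑ P' ∈ D.support with r P' = Q, D P' := by
    intro Q
    rw [← hmap Q, Fermat.Agent.S37.H518.mapDomain_apply_eq_sum]
  set M : β → ℤ := fun Q => ∑ P' ∈ D.support with r P' = Q, max (D P') 0 with hM
  have hle : ∀ Q, max (D' Q) 0 ≤ M Q := by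
    intro Q
    rw [hfib Q]
    refine max_le ?_ ?_
    · exact Finset.sum_le_sum fun P' _ => le_max_left _ _
    · exact Finset.sum_nonneg fun P' _ => le_max_right _ _
  -- total mass of `M` over the image of the support
  set T : Finset β := D.support.image r ∪ D'.support with hT
  have htot : ∑ Q ∈ T, M Q = ∑ P' ∈ D.support, max (D P') 0 := by
    rw [hM]
    simp only
    rw [Finset.sum_comm' (t' := D.support) (s' := fun P' => {r P'})
      (f := fun Q P' => max (D P') 0)]
    · refine Finset.sum_congr rfl fun P' _ => ?_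
      rw [Finset.sum_singleton]
    · intro Q P'
      simp only [Finset.mem_filter, Finset.mem_singleton, hT, Finset.mem_union, Finset.mem_image]
      constructor
      · rintro ⟨-, hP', rfl⟩
        exact ⟨rfl, hP'⟩
      · rintro ⟨rfl, hP'⟩
        exact ⟨Or.inl ⟨P', hP', rfl⟩, hP', rfl⟩
  have htot' : ∑ Q ∈ T, max (D' Q) 0 = ∑ Q ∈ D'.support, max (D' Q) 0 := by
    symm
    refine Finset.sum_subset Finset.subset_union_right fun Q _ hQ => ?_
    rw [Finsupp.notMem_support_iff] at hQ
    rw [hQ, max_self]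
  have heq : ∀ Q ∈ T, max (D' Q) 0 = M Q := by
    have := (Finset.sum_eq_sum_iff_of_le (s := T) (f := fun Q => max (D' Q) 0) (g := M)
      (fun Q _ => hle Q)).mp (by rw [htot, htot', hsum])
    exact this
  have hPs : P ∈ D.support := Finsupp.mem_support_iff.mpr (ne_of_gt hP)
  have hrT : r P ∈ T := Finset.mem_union_left _ (Finset.mem_image_of_mem r hPs)
  have hMpos : 0 < M (r P) := by
    have h1 : max (D P) 0 ≤ M (r P) := by
      rw [hM]
      exact Finset.single_le_sum (f := fun P' => max (D P') 0)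
        (fun P' _ => le_max_right _ _) (Finset.mem_filter.mpr ⟨hPs, rfl⟩)
    have h2 : 0 < max (D P) 0 := lt_max_of_lt_left hP
    omega
  have := heq (r P) hrT
  rw [← this] at hMpos
  rcases max_cases (D' (r P)) 0 with ⟨h1, -⟩ | ⟨h1, -⟩
  · rwa [h1] at hMpos
  · rw [h1] at hMpos
    exact absurd hMpos (lt_irrefl _)


theorem sum_max_neg_h542 (E : α →₀ ℤ) :
    ∑ P ∈ (-E).support, max ((-E) P) 0 =
      ∑ P ∈ E.support, max (E P) 0 - ∑ P ∈ E.support, E P := by
  rw [Finsupp.support_neg, ← Finset.sum_sub_distrib]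
  refine Finset.sum_congr rfl fun P _ => ?_
  rw [Finsupp.neg_apply]
  rcases le_total (E P) 0 with h | h
  · rw [max_eq_left (by omega), max_eq_right h]; ring
  · rw [max_eq_right (by omega), max_eq_left h]; ring

/-- Conservation for the negative parts, when moreover `D`, `D'` have the same total mass. -/
theorem neg_of_mapDomain_h542 (r : α → β) (D : α →₀ ℤ) (D' : β →₀ ℤ)
    (hmap : ∀ Q, Finsupp.mapDomain r D Q = D' Q)
    (hsum : ∑ P ∈ D.support, max (D P) 0 = ∑ Q ∈ D'.support, max (D' Q) 0)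
    (hdeg : ∑ P ∈ D.support, D P = ∑ Q ∈ D'.support, D' Q)
    (P : α) (hP : D P < 0) : D' (r P) < 0 := by
  have hmap' : ∀ Q, Finsupp.mapDomain r (-D) Q = (-D') Q := by
    intro Q
    have : Finsupp.mapDomain r (-D) = -Finsupp.mapDomain r D :=
      map_neg (Finsupp.mapDomain.addMonoidHom r) D
    rw [this, Finsupp.neg_apply, Finsupp.neg_apply, hmap Q]
  have h := pos_of_mapDomain_h542 r (-D) (-D') hmap'
    (by rw [sum_max_neg_h542, sum_max_neg_h542, hsum, hdeg]) P
    (by rw [Finsupp.neg_apply]; omega)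
  rw [Finsupp.neg_apply] at h
  omega

end Abstract


section Concrete

open Fermat.Agent.S15.H722 Fermat.Agent.S37.H868

variable {L : Type*} [Field L] [Algebra ℚ L] [IsAlgClosed L] (A : ValuationSubring L)
variable {k : Type*} [Field k] [IsAlgClosed k] (π : A →+* k) (N : ℕ) [NeZero N]

local notation "FL" => laurentBaseChange L (modularFunctionFieldFull N)
local notation "Fk" => modularFunctionFieldFullC k N

/-- The divisor of `1/j` and its push-forward, with all the numerical facts. -/
theorem exists_div_inv_j (hchar : ∀ p : ℕ, p.Prime → p ∣ N → (p : k) ≠ 0)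
    (r : Place L FL → Place k Fk) (hr : IsPlaceReductionAlong A π N r) :
    ∃ (D : Divisor L FL) (D' : Divisor k Fk),
      (∀ P, D P = P.ord ((jF L N)⁻¹)) ∧ (∀ Q, D' Q = Q.ord ((jFk k N)⁻¹)) ∧
      (∀ Q, Finsupp.mapDomain r D Q = D' Q) ∧
      ∑ P ∈ D.support, max (D P) 0 = ∑ Q ∈ D'.support, max (D' Q) 0 ∧
      ∑ P ∈ D.support, D P = ∑ Q ∈ D'.support, D' Q := by
  have : HasPrincipalDivisors L FL := hpd_bar L N
  obtain ⟨D, hD, hdeg⟩ := HasPrincipalDivisors.exists_divisor (K := L) ((jF L N)⁻¹)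
    (inv_ne_zero (jF_ne_zero L N))
  have hy : coeffMap A.subtype (jInvSer A) ∈ FL := by
    rw [coeffMap_jInvSer]; exact inv_mem (j_mem_F L N)
  have hyk : coeffMap π (jInvSer A) ∈ Fk := by
    rw [coeffMap_jInvSer]; exact inv_mem (jqModC_mem_full k N)
  have hne : coeffMap π (jInvSer A) ≠ 0 := by
    rw [coeffMap_jInvSer]; exact inv_ne_zero (jqModC_ne_zero' k)
  have e1 : (⟨coeffMap A.subtype (jInvSer A), hy⟩ : FL) = (jF L N)⁻¹ :=
    Subtype.ext (by
      show coeffMap A.subtype (jInvSer A) = ((jF L N)⁻¹ : FL)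
      rw [coeffMap_jInvSer]; rfl)
  have e2 : (⟨coeffMap π (jInvSer A), hyk⟩ : Fk) = (jFk k N)⁻¹ :=
    Subtype.ext (by
      show coeffMap π (jInvSer A) = ((jFk k N)⁻¹ : Fk)
      rw [coeffMap_jInvSer]; rfl)
  have hred := hr.2 (jInvSer A) hy hyk hne D (fun P => by rw [hD, e1])
  rw [e2] at hred
  refine ⟨D, Finsupp.mapDomain r D, hD, hred, fun Q => rfl, ?_, ?_⟩
  · rw [sum_zero_inv_j_bar L N ((jF L N)⁻¹) rfl D hD,
      sum_zero_inv_j_fullC k N hchar ((jFk k N)⁻¹) rfl (Finsupp.mapDomain r D) hred]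
  · rw [← Fermat.Agent.S37.H518.degree_eq_sum_of_deg_one D (deg_bar L N),
      ← Fermat.Agent.S37.H518.degree_eq_sum_of_deg_one (Finsupp.mapDomain r D)
        (deg_fullC k N hchar), degree_mapDomain_of_deg_eq hr.1]

/-- **DEG (poles).** A place reduction maps poles of `j` to poles of `j̄`. -/
theorem pole_to_pole_jF (hchar : ∀ p : ℕ, p.Prime → p ∣ N → (p : k) ≠ 0)
    (r : Place L FL → Place k Fk) (hr : IsPlaceReductionAlong A π N r)
    (P : Place L FL) (hP : P.ord (jF L N) < 0) : (r P).ord (jFk k N) < 0 := by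
  obtain ⟨D, D', hD, hD', hmap, hsum, -⟩ := exists_div_inv_j A π N hchar r hr
  have h := pos_of_mapDomain_h542 r D D' hmap hsum P (by rw [hD, Place.ord_inv]; omega)
  rw [hD', Place.ord_inv] at h
  omega

/-- **DEG (zeros).** A place reduction maps zeros of `j` to zeros of `j̄`. -/
theorem zero_to_zero_jF (hchar : ∀ p : ℕ, p.Prime → p ∣ N → (p : k) ≠ 0)
    (r : Place L FL → Place k Fk) (hr : IsPlaceReductionAlong A π N r)
    (P : Place L FL) (hP : 0 < P.ord (jF L N)) : 0 < (r P).ord (jFk k N) := by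
  obtain ⟨D, D', hD, hD', hmap, hsum, hdeg⟩ := exists_div_inv_j A π N hchar r hr
  have h := neg_of_mapDomain_h542 r D D' hmap hsum hdeg P (by rw [hD, Place.ord_inv]; omega)
  rw [hD', Place.ord_inv] at h
  omega

end Concrete

end Fermat.Agent.S15.H542

end
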