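import Fermat.Agent.S15.H542.REDu
import Fermat.Agent.S15.H542.ModUnitInt

/-!
# S15 / GEO, piece GE-3 = REDu (helper542): the modular unit decides the cusp

Level `p` (any `p ≠ 0`), `A` a valuation ring of `ℚ̄`, `r` ANY map of places satisfying the
Prelude's `IsPlaceReductionModL A p r` (e.g. `placeReductionModL h`).
Hypothesis `hu : modularUnitSeries p ∈ modularFunctionFieldFull p` (node CUSP).

* `uBar p hu` : the modular unit `u = Δ(q)/Δ(q^p)` in `ℚ̄(X₀(p))`;
* `redu_zero` : `u(x) = u₀ ≠ 0`, `v_A(u₀) < 1`  ⟹  `r x = r P` for some ZERO `P` of `u`;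
* `redu_pole` : `u(x) = u₀`, `v_A(u₀) > 1`      ⟹  `r x = r P` for some POLE `P` of `u`;
* `redu_zero'`, `redu_pole'` : the same when the zeros (poles) of `u` are known to be `{P₀}`
  (`{P∞}`): `r x = r P₀` (`r x = r P∞`);
* `reductionModL_single_sub_single` : `reductionModL A p [(P) - (P')] = 0` if `r P = r P'`
  (`r = placeReductionModL h`).
-/

set_option autoImplicit false
set_option synthInstance.maxHeartbeats 400000

noncomputable section

open HahnSeries IntermediateField AlgebraicCurve ModularCurve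

namespace Fermat.Agent.S15.H542

section Unit

variable (p : ℕ) [NeZero p] (hu : modularUnitSeries p ∈ modularFunctionFieldFull p)

/-- The modular unit `u = Δ(q)/Δ(q^p)` as an element of the function field of `X₀(p)` over `ℚ̄`. -/
def uBar : modularFunctionFieldBar p :=
  ⟨coeffEmb (AlgebraicClosure ℚ) (modularUnitSeries p),
    coeffEmb_mem_laurentBaseChange (AlgebraicClosure ℚ) hu⟩

theorem coe_uBar : ((uBar p hu : modularFunctionFieldBar p) : LaurentSeries (AlgebraicClosure ℚ)) =
    modUnitR (AlgebraicClosure ℚ) p :=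
  coeffEmb_modularUnitSeries p (AlgebraicClosure ℚ)

variable (A : ValuationSubring (AlgebraicClosure ℚ))

include hu in
theorem coeffMap_subtype_modUnitR_mem :
    coeffMap A.subtype (modUnitR A p) ∈ modularFunctionFieldBar p := by
  rw [coeffMap_modUnitR, ← coeffEmb_modularUnitSeries]
  exact coeffEmb_mem_laurentBaseChange (AlgebraicClosure ℚ) hu

theorem mk_coeffMap_subtype_modUnitR :
    (⟨coeffMap A.subtype (modUnitR A p), coeffMap_subtype_modUnitR_mem p hu A⟩ :
      modularFunctionFieldBar p) = uBar p hu := by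
  apply Subtype.ext
  change coeffMap A.subtype (modUnitR A p) = _
  rw [coeffMap_modUnitR, coe_uBar]

variable {p A}
variable {r : Place (AlgebraicClosure ℚ) (modularFunctionFieldBar p) →
  Place (IsLocalRing.ResidueField A) (modularFunctionFieldFullC (IsLocalRing.ResidueField A) p)}

/-- **REDu, zeros.**  If `u(x) = u₀ ≠ 0` with `v_A(u₀) < 1`, then `x` has the same reduction
as some zero of `u`. -/
theorem redu_zero (hr : IsPlaceReductionModL A p r)
    (x : Place (AlgebraicClosure ℚ) (modularFunctionFieldBar p)) (u₀ : AlgebraicClosure ℚ)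
    (hu₀ : u₀ ≠ 0) (hval : A.valuation u₀ < 1)
    (hx : 0 < x.ord (uBar p hu - algebraMap (AlgebraicClosure ℚ) (modularFunctionFieldBar p) u₀)) :
    ∃ P : Place (AlgebraicClosure ℚ) (modularFunctionFieldBar p),
      0 < P.ord (uBar p hu) ∧ r P = r x := by
  haveI := Fermat.Agent.Lib.RR.H864.hasPrincipalDivisors_modularFunctionFieldBar p
  have hmem : u₀ ∈ A := (A.valuation_le_one_iff u₀).mp hval.le
  set a : A := ⟨u₀, hmem⟩ with hadef
  have ha : IsLocalRing.residue A a = 0 := by
    rw [IsLocalRing.residue_eq_zero_iff, A.valuation_lt_one_iff]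
    exact hval
  have ha0 : a ≠ 0 := fun h => hu₀ (congrArg Subtype.val h)
  have key := r_eq_zero_of_val_lt (L := AlgebraicClosure ℚ) (N := p) hr (modUnitR A p)
    (modUnitInvR A p) (modUnitR_mul_inv A p) (coeffMap_subtype_modUnitR_mem p hu A) a ha ha0 x
    (by rw [mk_coeffMap_subtype_modUnitR]; exact hx)
  rw [mk_coeffMap_subtype_modUnitR] at key
  exact key

/-- **REDu, poles.**  If `u(x) = u₀` with `v_A(u₀) > 1`, then `x` has the same reduction as
some pole of `u`. -/
theorem redu_pole (hr : IsPlaceReductionModL A p r)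
    (x : Place (AlgebraicClosure ℚ) (modularFunctionFieldBar p)) (u₀ : AlgebraicClosure ℚ)
    (hval : 1 < A.valuation u₀)
    (hx : 0 < x.ord (uBar p hu - algebraMap (AlgebraicClosure ℚ) (modularFunctionFieldBar p) u₀)) :
    ∃ P : Place (AlgebraicClosure ℚ) (modularFunctionFieldBar p),
      P.ord (uBar p hu) < 0 ∧ r P = r x := by
  haveI := Fermat.Agent.Lib.RR.H864.hasPrincipalDivisors_modularFunctionFieldBar p
  have hu₀ : u₀ ≠ 0 := by
    rintro rfl
    rw [map_zero] at hval
    exact absurd hval (not_lt.mpr zero_le_one)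
  have hval' : A.valuation u₀⁻¹ < 1 := by
    rw [map_inv₀]
    exact inv_lt_one_of_one_lt₀ hval
  have hmem : u₀⁻¹ ∈ A := (A.valuation_le_one_iff _).mp hval'.le
  set b : A := ⟨u₀⁻¹, hmem⟩ with hbdef
  have hb : IsLocalRing.residue A b = 0 := by
    rw [IsLocalRing.residue_eq_zero_iff, A.valuation_lt_one_iff]
    exact hval'
  have hb0 : b ≠ 0 := fun h => inv_ne_zero hu₀ (congrArg Subtype.val h)
  have hbinv : ((b : AlgebraicClosure ℚ))⁻¹ = u₀ := by
    rw [hbdef]; exact inv_inv u₀
  have key := r_eq_pole_of_val_gt (L := AlgebraicClosure ℚ) (N := p) hr (modUnitR A p)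
    (coeffMap_subtype_modUnitR_mem p hu A) b hb hb0 x
    (by rw [mk_coeffMap_subtype_modUnitR, hbinv]; exact hx)
  rw [mk_coeffMap_subtype_modUnitR] at key
  exact key

/-- **REDu at the cusp `0`.** -/
theorem redu_zero' (hr : IsPlaceReductionModL A p r)
    (P₀ : Place (AlgebraicClosure ℚ) (modularFunctionFieldBar p))
    (hP₀ : ∀ P : Place (AlgebraicClosure ℚ) (modularFunctionFieldBar p),
      0 < P.ord (uBar p hu) → P = P₀)
    (x : Place (AlgebraicClosure ℚ) (modularFunctionFieldBar p)) (u₀ : AlgebraicClosure ℚ)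
    (hu₀ : u₀ ≠ 0) (hval : A.valuation u₀ < 1)
    (hx : 0 < x.ord (uBar p hu - algebraMap (AlgebraicClosure ℚ) (modularFunctionFieldBar p) u₀)) :
    r x = r P₀ := by
  obtain ⟨P, hP, hPx⟩ := redu_zero hu hr x u₀ hu₀ hval hx
  rw [← hPx, hP₀ P hP]

/-- **REDu at the cusp `∞`.** -/
theorem redu_pole' (hr : IsPlaceReductionModL A p r)
    (Pinf : Place (AlgebraicClosure ℚ) (modularFunctionFieldBar p))
    (hPinf : ∀ P : Place (AlgebraicClosure ℚ) (modularFunctionFieldBar p),
      P.ord (uBar p hu) < 0 → P = Pinf)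
    (x : Place (AlgebraicClosure ℚ) (modularFunctionFieldBar p)) (u₀ : AlgebraicClosure ℚ)
    (hval : 1 < A.valuation u₀)
    (hx : 0 < x.ord (uBar p hu - algebraMap (AlgebraicClosure ℚ) (modularFunctionFieldBar p) u₀)) :
    r x = r Pinf := by
  obtain ⟨P, hP, hPx⟩ := redu_pole hu hr x u₀ hval hx
  rw [← hPx, hPinf P hP]

end Unit

section Class

variable {N : ℕ} {A : ValuationSubring (AlgebraicClosure ℚ)}

/-- `red [(P) - (P')] = 0` as soon as `P` and `P'` have the same reduction. -/
theorem reductionModL_single_sub_single (h : ReductionInputsModL A N)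
    (P P' : Place (AlgebraicClosure ℚ) (modularFunctionFieldBar N))
    (hPP' : placeReductionModL h P = placeReductionModL h P')
    (hdeg : (Finsupp.single P (1 : ℤ) - Finsupp.single P' (1 : ℤ) :
      Divisor (AlgebraicClosure ℚ) (modularFunctionFieldBar N)) ∈
        Divisor.degZero (K := AlgebraicClosure ℚ) (F := modularFunctionFieldBar N)) :
    reductionModL A N (Pic0.mk ⟨_, hdeg⟩) = 0 := by
  rw [reductionModL_mk h]
  have h0 : reductionDegZeroAlong (placeReductionModL h)
      (isPlaceReductionModL_placeReductionModL h).1 ⟨_, hdeg⟩ = 0 := by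
    apply Subtype.ext
    rw [coe_reductionDegZeroAlong]
    show Finsupp.mapDomain (placeReductionModL h)
      (Finsupp.single P (1 : ℤ) - Finsupp.single P' (1 : ℤ)) = 0
    rw [Finsupp.mapDomain_sub, Finsupp.mapDomain_single, Finsupp.mapDomain_single, hPP',
      sub_self]
  rw [h0]
  rfl

end Class

end Fermat.Agent.S15.H542
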