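import Fermat.Agent.S15.H542.IdDeg
import Fermat.Agent.S15.H542.REDuUnit
import Fermat.Agent.S15.H962.GeoFib
import Fermat.Agent.S15.H482.CuspPoles

/-!
# S15 / GEO-PARTS (b) IDENT at level `p` (helper542)

`q ≠ p` primes, `A` a valuation ring of `ℚ̄` over `q`, `h : ReductionInputsModL A p`.
The place reduction `r = placeReductionModL h` maps the residue disc of the cusp `∞` to `r ∞` and
the residue disc of the cusp `0` to `r 0` (`H722.r_eq_cusp` with the inputs DEG (`IdDeg.lean`),
`hinf`, `h0`, `hcusps`, `hjd` proved here).  Hence `reductionModL A p` kills `discK p A P₀`: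

* `hasVal_cuspInfty_ratio` : `j_p / j ^ p` takes the value `1` at `∞`;
* `hasVal_cuspZero_ratio`  : `j_p / j ^ p` takes the value `0` at the cusp `0`;
* `placeReduction_eq_of_disc` : the two residue discs reduce to the two cusps;
* `killedBy_levelP` : **IDENT-p**, `H962.KilledBy p A P₀ (reductionModL A p)`.
-/

set_option autoImplicit false
set_option synthInstance.maxHeartbeats 400000

noncomputable section

open AlgebraicCurve ModularCurve HahnSeries

namespace Fermat.Agent.S15.H542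

open Fermat.Agent.S15.H362 (Qb FB)
open Fermat.Agent.S15.H722
open Fermat.Agent.Lib.RR

section Series

theorem isMonicOfOrder_jq_pow (n : ℕ) : IsMonicOfOrder (jq ^ n) (-(n : ℤ)) := by
  induction n with
  | zero =>
    have h := IsMonicOfOrder.single 0
    rwa [show (HahnSeries.single (0 : ℤ) (1 : ℚ)) = 1 from rfl] at h
  | succ n ih =>
    have h := ih.mul Fermat.Agent.S15.H362.isMonicOfOrder_jq
    rw [pow_succ]
    convert h using 1
    push_cast
    ring

theorem isMonicOfOrder_ratio_h542 (p : ℕ) [NeZero p] :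
    IsMonicOfOrder (qExpand ℚ p jq / jq ^ p) 0 := by
  have h1 := Fermat.Agent.S15.H362.isMonicOfOrder_jq.qExpand p
  have h2 := isMonicOfOrder_jq_pow p
  have hne : jq ^ p ≠ 0 := h2.ne_zero
  have h3 : IsMonicOfOrder ((qExpand ℚ p jq / jq ^ p) * jq ^ p) ((p : ℤ) * (-1)) := by
    rwa [div_mul_cancel₀ _ hne]
  have h4 := h3.of_mul_right h2
  convert h4 using 1
  ring

theorem order_sub_one_pos_h542 {u : LaurentSeries ℚ} (hu : IsMonicOfOrder u 0)
    (hne : u - 1 ≠ 0) : 0 < (u - 1).order := by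
  by_contra hle
  rw [not_lt] at hle
  apply hne
  rw [← HahnSeries.coeff_order_eq_zero, HahnSeries.coeff_sub]
  rcases lt_or_eq_of_le hle with h | h
  · rw [hu.coeff_of_lt h, HahnSeries.coeff_one, if_neg h.ne, sub_zero]
  · rw [h, hu.coeff_self, HahnSeries.coeff_one, if_pos rfl, sub_self]

end Series

section Bridge

variable (p : ℕ) [NeZero p]

theorem jF_eq_jBar_h542 : jF Qb p = Fermat.Agent.S15.H362.jBar p :=
  Subtype.ext (by
    show jqModC Qb = coeffEmb Qb jq
    rw [coeffEmb, ← jqModC_rat, coeffMap_jqModC])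

theorem jdF_eq_jLevelBar_h542 :
    jdF Qb p (dvd_refl p) = Fermat.Agent.S15.H362.jLevelBar p :=
  Subtype.ext (by
    show qExpand Qb p (jqModC Qb) = coeffEmb Qb (qExpand ℚ p jq)
    rw [coeffEmb, ModularCurve.coeffMap_qExpand, ← jqModC_rat, coeffMap_jqModC])

theorem jBar_ne_zero_h542 : Fermat.Agent.S15.H362.jBar p ≠ 0 := by
  rw [← jF_eq_jBar_h542]
  exact jF_ne_zero Qb p

theorem jLevelBar_ne_zero_h542 : Fermat.Agent.S15.H362.jLevelBar p ≠ 0 := by
  apply ne_zero_of_ord_ne_zero (Fermat.Agent.S15.H362.cuspZero p)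
  rw [Fermat.Agent.S15.H362.ord_cuspZero_jLevelBar]
  omega

/-- **HINF**: `j_p / j ^ p` takes the value `1` at the cusp `∞`. -/
theorem hasVal_cuspInfty_ratio :
    HasVal (Fermat.Agent.S15.H362.cuspInfty p)
      (Fermat.Agent.S15.H362.jLevelBar p / Fermat.Agent.S15.H362.jBar p ^ p) 1 := by
  have hcoe : ((Fermat.Agent.S15.H362.jLevelBar p / Fermat.Agent.S15.H362.jBar p ^ p -
      algebraMap Qb (FB p) 1 : FB p) : LaurentSeries Qb) =
        coeffEmb Qb (qExpand ℚ p jq / jq ^ p - 1) := by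
    rw [map_one, map_sub, map_div₀, map_pow, map_one]
    rfl
  by_cases h0 : Fermat.Agent.S15.H362.jLevelBar p / Fermat.Agent.S15.H362.jBar p ^ p -
      algebraMap Qb (FB p) 1 = 0
  · exact Or.inl h0
  · right
    rw [Fermat.Agent.S15.H362.ord_cuspInfty, hcoe, Fermat.Agent.S15.H362.order_coeffEmb]
    refine order_sub_one_pos_h542 (isMonicOfOrder_ratio_h542 p) fun h => h0 ?_
    apply Subtype.ext
    rw [hcoe, h, map_zero]
    rfl

/-- **H0**: `j_p / j ^ p` takes the value `0` at the cusp `0`. -/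
theorem hasVal_cuspZero_ratio (hp : p.Prime) :
    HasVal (Fermat.Agent.S15.H362.cuspZero p)
      (Fermat.Agent.S15.H362.jLevelBar p / Fermat.Agent.S15.H362.jBar p ^ p) 0 := by
  apply hasVal_zero_of_ord_pos
  rw [div_eq_mul_inv, Place.ord_mul _ (jLevelBar_ne_zero_h542 p)
    (inv_ne_zero (pow_ne_zero _ (jBar_ne_zero_h542 p))), Place.ord_inv, ord_pow,
    Fermat.Agent.S15.H362.ord_cuspZero_jLevelBar, Fermat.Agent.S15.H362.ord_cuspZero_jBar]
  have : (2 : ℤ) ≤ p := by exact_mod_cast hp.two_le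
  nlinarith

end Bridge


section Main

variable (p : ℕ) [NeZero p]

theorem residue_eq_zero_of_not_isUnit_h542 (A : ValuationSubring Qb) (a : A) (ha : ¬ IsUnit a) :
    IsLocalRing.residue A a = 0 :=
  (IsLocalRing.residue_eq_zero_iff a).mpr ((IsLocalRing.mem_maximalIdeal a).mpr ha)

theorem hchar_residue_h542 (hp : p.Prime) {q : ℕ} (hq : q.Prime) (hqp : q ≠ p)
    (A : ValuationSubring Qb) (hA : A.LiesOverPrime q) :
    ∀ ℓ : ℕ, ℓ.Prime → ℓ ∣ p → ((ℓ : ℕ) : IsLocalRing.ResidueField A) ≠ 0 := by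
  intro ℓ hℓ hℓp
  have e : ℓ = p := (Nat.prime_dvd_prime_iff_eq hℓ hp).mp hℓp
  subst e
  exact Fermat.Agent.S18.H905.natCast_residue_ne_zero A hq hA
    (fun h => hqp ((Nat.prime_dvd_prime_iff_eq hq hℓ).mp h))

/-- **The residue discs reduce to the cusps.** -/
theorem placeReduction_eq_of_disc (hp : p.Prime) {q : ℕ} (hq : q.Prime) (hqp : q ≠ p)
    (A : ValuationSubring Qb) (hA : A.LiesOverPrime q) (h : ReductionInputsModL A p)
    {P : Place Qb (FB p)} {a a' : Qb} (ha : HasValueAt P (H542.jBar p) a)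
    (ha' : HasValueAt P (jNBar p) a') (hva : 1 < A.valuation a) :
    (A.valuation a' = A.valuation a ^ p →
      placeReductionModL h P = placeReductionModL h (Fermat.Agent.S15.H362.cuspInfty p)) ∧
    (A.valuation a' ^ p = A.valuation a →
      placeReductionModL h P = placeReductionModL h (Fermat.Agent.S15.H362.cuspZero p)) := by
  have : IsAlgClosed (IsLocalRing.ResidueField A) :=
    Fermat.Agent.S18.H905.isAlgClosed_residueField A
  have hchar := hchar_residue_h542 p hp hq hqp A hA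
  have hr := isPlaceReductionModL_placeReductionModL h
  have hπ : ∀ a : A, ¬ IsUnit a → IsLocalRing.residue A a = 0 :=
    residue_eq_zero_of_not_isUnit_h542 A
  have hzero := zero_to_zero_jF A (IsLocalRing.residue A) p hchar _ hr
  have hpole := pole_to_pole_jF A (IsLocalRing.residue A) p hchar _ hr
  have hcusps : ∀ P : Place Qb (FB p), P.ord (jF Qb p) < 0 →
      P = Fermat.Agent.S15.H362.cuspInfty p ∨ P = Fermat.Agent.S15.H362.cuspZero p := by
    intro P hP
    rw [jF_eq_jBar_h542] at hP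
    exact Fermat.Agent.S15.H362.eq_cusp_of_ord_jBar_neg p hp P hP
  have hjd : ∀ P : Place Qb (FB p), P.ord (jdF Qb p (dvd_refl p)) < 0 →
      P.ord (jF Qb p) < 0 := by
    intro P hP
    rw [jdF_eq_jLevelBar_h542] at hP
    rw [jF_eq_jBar_h542]
    rcases Fermat.Agent.S15.H362.eq_cusp_of_ord_jLevelBar_neg p hp P hP with e | e
    · rw [e, Fermat.Agent.S15.H362.ord_cuspInfty_jBar]
      omega
    · rw [e, Fermat.Agent.S15.H362.ord_cuspZero_jBar]
      have := hp.pos
      omega
  have hinf : HasVal (Fermat.Agent.S15.H362.cuspInfty p)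
      (jdF Qb p (dvd_refl p) / jF Qb p ^ p) 1 := by
    rw [jdF_eq_jLevelBar_h542, jF_eq_jBar_h542]
    exact hasVal_cuspInfty_ratio p
  have h0 : HasVal (Fermat.Agent.S15.H362.cuspZero p)
      (jdF Qb p (dvd_refl p) / jF Qb p ^ p) 0 := by
    rw [jdF_eq_jLevelBar_h542, jF_eq_jBar_h542]
    exact hasVal_cuspZero_ratio p hp
  have haV : HasVal P (jF Qb p) a := by
    rw [jF_eq_jBar_h542]
    exact Or.inr ha
  have hbV : HasVal P (jdF Qb p (dvd_refl p)) a' := by
    rw [jdF_eq_jLevelBar_h542]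
    exact Or.inr ha'
  have haA : a ∉ A := Fermat.Agent.S15.H962.not_mem_of_one_lt_val A hva
  obtain ⟨hmem, hunit, hnunit⟩ := r_eq_cusp A (IsLocalRing.residue A) p hπ
    (placeReductionModL h) hr hzero hpole (dvd_refl p) hcusps hjd hinf h0 haV hbV haA
  refine ⟨fun hrel => hunit ?_, fun hrel => hnunit ?_⟩
  · have h1 := Fermat.Agent.S15.H962.val_ratio_of_inDiscInfty A.valuation hva hrel
    exact (ValuationSubring.valuation_eq_one_iff A ⟨_, hmem⟩).mpr h1
  · intro hu
    have h1 := Fermat.Agent.S15.H962.val_ratio_of_inDiscZero A.valuation hp.two_le hva hrel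
    have h2 := (ValuationSubring.valuation_eq_one_iff A ⟨_, hmem⟩).mp hu
    have h3 : A.valuation (a' / a ^ p) = 1 := h2
    rw [h3] at h1
    exact lt_irrefl _ h1

/-- **GEO-PARTS (b), IDENT at level `p`**: the reduction map of `X₀(p)` at a place `A ∣ q`,
`q ≠ p`, kills the subgroup `discK p A P₀`. -/
theorem killedBy_levelP (hp : p.Prime) {q : ℕ} (hq : q.Prime) (hqp : q ≠ p)
    (A : ValuationSubring Qb) (hA : A.LiesOverPrime q) (h : ReductionInputsModL A p)
    (P₀ : Place Qb (FB p)) (hP₀ : Fermat.Agent.S15.Core.IsCuspZero p P₀) :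
    Fermat.Agent.S15.H962.KilledBy p A P₀ (reductionModL A p) := by
  have hP₀' : P₀ = Fermat.Agent.S15.H362.cuspZero p :=
    Fermat.Agent.S15.H482.IsCuspZero.eq_cuspZero p hp hP₀
  refine Fermat.Agent.S15.H962.killedBy_of_gens ?_ ?_
  · rintro P z ⟨a, a', ha, ha', hva, hrel⟩ ⟨hdeg, rfl⟩
    refine reductionModL_single_sub_single h P P₀ ?_ hdeg
    rw [hP₀']
    exact (placeReduction_eq_of_disc p hp hq hqp A hA h ha ha' hva).2 hrel
  · rintro P z ⟨a, a', ha, ha', hva, hrel⟩ ⟨hdeg, rfl⟩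
    refine reductionModL_single_sub_single h P (Fermat.Agent.S15.Core.cuspInfty p) ?_ hdeg
    rw [← Fermat.Agent.S15.H362.cuspInfty_eq_core]
    exact (placeReduction_eq_of_disc p hp hq hqp A hA h ha ha' hva).1 hrel

end Main

end Fermat.Agent.S15.H542

end
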