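import Fermat.Agent.S15.H542.ModSpec

/-!
# S15, piece MOD-B (architect helper542): the complex bridge, sub-interface

`VeluModularPairStatement` (see `ModSpec.lean`) is split as follows.

* `VeluMapStatement` (B0): Vélu's curve commutes with field embeddings.
* `IsModularPairMapStatement` (B0'): `IsModularPair` is insensitive to field embeddings.
* `Uniformization E` / `UniformizationStatement` (B2 + B3): every elliptic curve over `ℂ` is
  `ℂ/Λ`, via `z ↦ (℘(z) - b₂/12, (℘'(z) - a₁ x - a₃)/2)`, an additive surjection with kernel `Λ`.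
* `LatticeVeluStatement` (B4): for `Λ' = Λ + ℤ z₀` (`p z₀ ∈ Λ`, `z₀ ∉ Λ`),
  `g₂(Λ') = g₂(Λ) + 10 ∑_{k=1}^{p-1} ℘''(k z₀)`, `g₃(Λ') = g₃(Λ) + (7/6) ∑_{k=1}^{p-1} ℘''''(k z₀)`,
  with `℘'' = 6℘² - g₂/2`, `℘'''' = 120 ℘³ - 18 g₂ ℘ - 12 g₃`.
* `LatticeModularPairStatement` (B5): for such `Λ ⊂ Λ'`, `Δ(Λ') ≠ 0` and
  `(j(Λ), j(Λ'))` is a point of the plane model of `X₀(p)`.
* `VeluModularPairComplexStatement` (B-ℂ): the bridge over `ℂ`.
-/

set_option autoImplicit false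

noncomputable section

open WeierstrassCurve AlgebraicCurve ModularCurve
open scoped WeierstrassCurve.Affine

namespace Fermat.Agent.S15.H542

/-- **B0.**  Vélu's curve commutes with field embeddings. -/
def VeluMapStatement : Prop :=
  ∀ {K L : Type} [Field K] [Field L] [DecidableEq K] [DecidableEq L] [Algebra K L]
    (W : WeierstrassCurve K) (Q : W.toAffine.Point) (p : ℕ),
    veluCurve (W⁄L) (WeierstrassCurve.Affine.Point.map (W' := W) (Algebra.ofId K L) Q) p =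
      (veluCurve W Q p).map (algebraMap K L)

/-- **B0'.**  `IsModularPair` only depends on the pair up to field embeddings. -/
def IsModularPairMapStatement : Prop :=
  ∀ {K L : Type} [Field K] [Field L] [Algebra ℚ K] [Algebra ℚ L] (f : K →+* L)
    (N : ℕ) [NeZero N] (a a' : K),
    IsModularPair N (f a) (f a') ↔ IsModularPair N a a'

/-- The lattice `j`-invariant `1728 g₂³ / (g₂³ - 27 g₃²)`. -/
def latticeJ (L : PeriodPair) : ℂ := 1728 * L.g₂ ^ 3 / (L.g₂ ^ 3 - 27 * L.g₃ ^ 2)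

/-- Complex uniformisation data for an elliptic curve over `ℂ`. -/
structure Uniformization [DecidableEq ℂ] (E : WeierstrassCurve ℂ) where
  /-- the period lattice -/
  L : PeriodPair
  g₂_eq : L.g₂ = E.c₄ / 12
  g₃_eq : L.g₃ = E.c₆ / 216
  /-- the parametrisation -/
  φ : ℂ →+ E.toAffine.Point
  φ_surjective : Function.Surjective φ
  φ_eq_zero_iff : ∀ z : ℂ, φ z = 0 ↔ z ∈ L.lattice
  xOf_φ : ∀ z : ℂ, z ∉ L.lattice → xOf (φ z) = L.weierstrassP z - E.b₂ / 12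
  yOf_φ : ∀ z : ℂ, z ∉ L.lattice →
    2 * yOf (φ z) + E.a₁ * xOf (φ z) + E.a₃ = L.derivWeierstrassP z

/-- **B2 + B3.**  Every elliptic curve over `ℂ` has a uniformisation. -/
def UniformizationStatement : Prop :=
  ∀ [DecidableEq ℂ] (E : WeierstrassCurve ℂ), E.Δ ≠ 0 → Nonempty (Uniformization E)

/-- `Λ' = Λ + ℤ z₀`. -/
def IsSuperLattice (L L' : PeriodPair) (z₀ : ℂ) : Prop :=
  ∀ z : ℂ, z ∈ L'.lattice ↔ ∃ k : ℤ, z - k * z₀ ∈ L.lattice

/-- **B4.**  The lattice form of Vélu's formulas. -/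
def LatticeVeluStatement : Prop :=
  ∀ (L : PeriodPair) (p : ℕ) (_hp : p.Prime) (_hp2 : p ≠ 2) (z₀ : ℂ)
    (_h0 : z₀ ∉ L.lattice) (_hpz : (p : ℂ) * z₀ ∈ L.lattice),
    ∃ L' : PeriodPair, IsSuperLattice L L' z₀ ∧
      L'.g₂ = L.g₂ + 10 * ∑ k ∈ Finset.Icc 1 (p - 1),
        (6 * L.weierstrassP (k * z₀) ^ 2 - L.g₂ / 2) ∧
      L'.g₃ = L.g₃ + 7 / 6 * ∑ k ∈ Finset.Icc 1 (p - 1),
        (120 * L.weierstrassP (k * z₀) ^ 3 - 18 * L.g₂ * L.weierstrassP (k * z₀) - 12 * L.g₃)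

/-- **B5.**  Lattices of index `p` give points of the plane model of `X₀(p)`. -/
def LatticeModularPairStatement : Prop :=
  ∀ (p : ℕ) [NeZero p] (_hp : p.Prime) (L L' : PeriodPair) (z₀ : ℂ)
    (_h0 : z₀ ∉ L.lattice) (_hpz : (p : ℂ) * z₀ ∈ L.lattice) (_hL' : IsSuperLattice L L' z₀),
    L.g₂ ^ 3 - 27 * L.g₃ ^ 2 ≠ 0 ∧ L'.g₂ ^ 3 - 27 * L'.g₃ ^ 2 ≠ 0 ∧
      IsModularPair p (latticeJ L) (latticeJ L')

/-- **B-ℂ.**  The bridge over `ℂ`. -/
def VeluModularPairComplexStatement : Prop :=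
  ∀ [DecidableEq ℂ] (p : ℕ) [NeZero p] (_hp : p.Prime) (_hp2 : p ≠ 2)
    (E : WeierstrassCurve ℂ) (_hΔ : E.Δ ≠ 0)
    (Q : E.toAffine.Point) (_hQord : addOrderOf Q = p),
    (veluCurve E Q p).Δ ≠ 0 ∧ IsModularPair p (jInv E) (jInv (veluCurve E Q p))

end Fermat.Agent.S15.H542
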