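import Fermat.Agent.S15.H542.ModGlueCore
import Fermat.Agent.S15.H602.ModA1
import Fermat.Agent.S15.H215.ModBTop

/-!
# S15, piece MOD: the node from its three open leaves (helper542)

`moduliPlace_of_open :
  PlaceUniqueStatement → UniformizationStatement → LatticeModularPairStatement →
    ModuliPlaceStatement`

using MOD-V (`veluRational`, helper542), MOD-A1 (`placeOfModularPairStatement`, helper602),
MOD-B glue (`veluModularPair_of_pieces`, helper215; B0, B0', B4 inside).
-/

set_option autoImplicit false

namespace Fermat.Agent.S15.H542

/-- The MOD node from MOD-A2, B3 (uniformisation) and B5 (lattice modular pair). -/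
theorem moduliPlace_of_open (hA2 : PlaceUniqueStatement) (h3 : UniformizationStatement)
    (h5 : LatticeModularPairStatement) : ModuliPlaceStatement :=
  moduliPlace_of_pieces Fermat.Agent.S15.H602.placeOfModularPairStatement hA2
    (Fermat.Agent.S15.H215.veluModularPair_of_pieces h3 h5)

end Fermat.Agent.S15.H542
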