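import Fermat.Agent.S15.H542.ModV

/-!
# S15, piece MOD, GLUE (helper542)

`moduliPlace_of_pieces :
  PlaceOfModularPairStatement → PlaceUniqueStatement → VeluModularPairStatement →
    ModuliPlaceStatement`

(`VeluRationalStatement` is proved in `ModV.lean`).  The place `P` is produced by MOD-A1 from the
modular pair of MOD-B; for every `σ` the place `σ • P` has the same two (rational) values, so
`σ • P = P` by MOD-A2.
-/

set_option autoImplicit false

noncomputable section

open WeierstrassCurve AlgebraicCurve ModularCurve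
open scoped WeierstrassCurve.Affine

namespace Fermat.Agent.S15.H542

/-- An element of `F` whose `q`-expansion has rational coefficients is fixed by the arithmetic
Galois action. -/
theorem arithmeticGalois_smul_coeffEmb {L : Type*} [Field L] [Algebra ℚ L]
    (F₀ : IntermediateField ℚ (LaurentSeries ℚ)) (σ : L ≃ₐ[ℚ] L)
    (x : laurentBaseChange L F₀) (x₀ : LaurentSeries ℚ)
    (hx : (x : LaurentSeries L) = coeffEmb L x₀) :
    arithmeticGalois F₀ σ • x = x := by
  apply Subtype.ext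
  rw [coe_arithmeticGalois_smul, hx, coeffEmb, coeffMap_coeffMap]
  exact coeffMap_congr (RingHom.ext fun c => by simp) x₀

/-- Values at rational numbers of functions with rational `q`-expansion are preserved by the
arithmetic Galois action on places. -/
theorem hasValueAt_smul_of_rational {N : ℕ}
    (σ : AlgebraicClosure ℚ ≃ₐ[ℚ] AlgebraicClosure ℚ)
    (P : Place (AlgebraicClosure ℚ) (modularFunctionFieldBar N))
    (f : modularFunctionFieldBar N) (f₀ : LaurentSeries ℚ)
    (hf : (f : LaurentSeries (AlgebraicClosure ℚ)) = coeffEmb (AlgebraicClosure ℚ) f₀)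
    (r : ℚ) (h : HasValueAt P f (algebraMap ℚ (AlgebraicClosure ℚ) r)) :
    HasValueAt (arithmeticGalois (modularFunctionFieldFull N) σ • P) f
      (algebraMap ℚ (AlgebraicClosure ℚ) r) := by
  unfold HasValueAt at h ⊢
  set g := arithmeticGalois (modularFunctionFieldFull N) σ with hg
  have h1 : g • f = f := arithmeticGalois_smul_coeffEmb _ σ f f₀ hf
  have h2 : g • (algebraMap (AlgebraicClosure ℚ) (modularFunctionFieldBar N)
      (algebraMap ℚ (AlgebraicClosure ℚ) r)) =
      algebraMap (AlgebraicClosure ℚ) (modularFunctionFieldBar N)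
        (algebraMap ℚ (AlgebraicClosure ℚ) r) := by
    rw [SemilinearAut.smul_algebraMap]
    congr 1
    exact σ.commutes r
  have h3 : g • (f - algebraMap (AlgebraicClosure ℚ) (modularFunctionFieldBar N)
      (algebraMap ℚ (AlgebraicClosure ℚ) r)) =
      f - algebraMap (AlgebraicClosure ℚ) (modularFunctionFieldBar N)
        (algebraMap ℚ (AlgebraicClosure ℚ) r) := by
    rw [smul_sub, h1, h2]
  rw [← h3, SemilinearAut.ord_smul]
  exact h

/-- `j(E)` of the base change of an integral curve is the image of a rational number. -/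
theorem jInv_curveBar (W : WeierstrassCurve ℤ) :
    jInv (curveBar W) =
      algebraMap ℚ (AlgebraicClosure ℚ) ((W.c₄ : ℚ) ^ 3 / (W.Δ : ℚ)) := by
  have h1 : (curveBar W).c₄ = algebraMap ℚ (AlgebraicClosure ℚ) (W.c₄ : ℚ) := by
    change ((W.map (Int.castRingHom ℚ)).map (algebraMap ℚ (AlgebraicClosure ℚ))).c₄ = _
    rw [WeierstrassCurve.map_c₄, WeierstrassCurve.map_c₄]
    simp
  have h2 : (curveBar W).Δ = algebraMap ℚ (AlgebraicClosure ℚ) (W.Δ : ℚ) := by
    change ((W.map (Int.castRingHom ℚ)).map (algebraMap ℚ (AlgebraicClosure ℚ))).Δ = _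
    rw [WeierstrassCurve.map_Δ, WeierstrassCurve.map_Δ]
    simp
  rw [jInv, h1, h2, map_div₀, map_pow]

theorem Δ_curveBar_ne_zero (W : WeierstrassCurve ℤ) (hΔ : W.Δ ≠ 0) : (curveBar W).Δ ≠ 0 := by
  have h2 : (curveBar W).Δ = algebraMap ℚ (AlgebraicClosure ℚ) (W.Δ : ℚ) := by
    change ((W.map (Int.castRingHom ℚ)).map (algebraMap ℚ (AlgebraicClosure ℚ))).Δ = _
    rw [WeierstrassCurve.map_Δ, WeierstrassCurve.map_Δ]
    simp
  rw [h2]
  simpa using hΔ

/-- `v₂(j) < 0` when `2 ∣ Δ`, `2 ∤ c₄`. -/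
theorem padicValRat_two_j_neg (W : WeierstrassCurve ℤ) (hΔ : W.Δ ≠ 0)
    (h2Δ : (2 : ℤ) ∣ W.Δ) (h2c₄ : ¬ (2 : ℤ) ∣ W.c₄) :
    padicValRat 2 ((W.c₄ : ℚ) ^ 3 / (W.Δ : ℚ)) < 0 := by
  haveI : Fact (Nat.Prime 2) := ⟨Nat.prime_two⟩
  have hc : W.c₄ ≠ 0 := fun h => h2c₄ (h ▸ dvd_zero _)
  have hcq : (W.c₄ : ℚ) ≠ 0 := by exact_mod_cast hc
  have hΔq : (W.Δ : ℚ) ≠ 0 := by exact_mod_cast hΔ
  rw [padicValRat.div (pow_ne_zero 3 hcq) hΔq, padicValRat.pow]
  have h1 : padicValRat 2 (W.c₄ : ℚ) = 0 := by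
    rw [padicValRat.of_int]
    have : padicValInt 2 W.c₄ = 0 := padicValInt.eq_zero_of_not_dvd (by exact_mod_cast h2c₄)
    simp [this]
  have h2 : 0 < padicValRat 2 (W.Δ : ℚ) := by
    rw [padicValRat.of_int]
    have : 1 ≤ padicValInt 2 W.Δ := by
      have := (padicValInt_dvd_iff (p := 2) 1 W.Δ).mp (by simpa using h2Δ)
      rcases this with h | h
      · exact absurd h hΔ
      · exact h
    exact_mod_cast this
  rw [h1]
  linarith

/-- **GLUE.**  The MOD node from its pieces. -/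
theorem moduliPlace_of_pieces (hA1 : PlaceOfModularPairStatement)
    (hA2 : PlaceUniqueStatement) (hB : VeluModularPairStatement) : ModuliPlaceStatement := by
  intro p _ hp hp5 W hΔ Q hQfix hQord h2Δ h2c₄
  have hp2 : p ≠ 2 := by omega
  obtain ⟨hΔ', hpair⟩ := hB p hp hp2 (curveBar W) (Δ_curveBar_ne_zero W hΔ) Q hQord
  obtain ⟨r', hr'⟩ := veluRational p W Q hQfix
  refine ⟨hΔ', ⟨r', hr'⟩, ?_⟩
  obtain ⟨P, hP1, hP2⟩ := hA1 p hp _ _ hpair
  refine ⟨P, ?_, hP1, hP2⟩
  intro σ
  have hj := jInv_curveBar W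
  rw [hj] at hP1
  rw [← hr'] at hP2
  have hr := padicValRat_two_j_neg W hΔ h2Δ h2c₄
  refine hA2 p hp hp2 _ hr (algebraMap ℚ (AlgebraicClosure ℚ) r') _ _ ?_ ?_ hP1 hP2
  · exact hasValueAt_smul_of_rational σ P (jBar p) jq rfl _ hP1
  · exact hasValueAt_smul_of_rational σ P (jNBar p) (qExpand ℚ p jq) rfl _ hP2

end Fermat.Agent.S15.H542
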