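import Fermat.Agent.S15.H542.ModGlueCore
import Fermat.Agent.S15.H542.ModA2
import Fermat.Agent.S15.H602.ModA1
import Fermat.Agent.S15.H215.ModBDone

/-!
# S15, piece MOD: THE NODE, unconditional (helper542, architect)

`moduliPlace : ModuliPlaceStatement`.

For a prime `p ≥ 5`, an integral Weierstrass curve `W` with `2 ∣ Δ`, `2 ∤ c₄`, and a Galois-fixed
point `Q ∈ E(ℚ̄)` of order `p`: Vélu's curve `E' = E/⟨Q⟩` is nonsingular with rational
`j`-invariant, and there is a Galois-fixed place `P` of the function field of `X₀(p)` over `ℚ̄`
with `j(P) = j(E)` and `j_p(P) = j(E')`.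

Pieces: MOD-V, GLUE, MOD-A2 (helper542); MOD-A1 (helper602); MOD-B (helper215, with B3 by
helper902, addition theorem by helper226, modular shape of `Φ_p` by helper386, Newton polygon by
helper962).
-/

set_option autoImplicit false

namespace Fermat.Agent.S15.H542

/-- **The MOD node.** -/
theorem moduliPlace : ModuliPlaceStatement :=
  moduliPlace_of_pieces Fermat.Agent.S15.H602.placeOfModularPairStatement placeUnique
    Fermat.Agent.S15.H215.veluModularPair

end Fermat.Agent.S15.H542
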