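import Fermat.Agent.S15.H542.ModSpec

/-!
# S15, piece MOD-V (helper542): Vélu's curve of a Galois-fixed point is defined over `ℚ`

`veluRational : VeluRationalStatement`.

More generally, for any `W` over `ℚ̄` fixed by a field automorphism `σ` and any point `Q` fixed by
`σ`, Vélu's curve `veluCurve W Q p` is fixed by `σ` (`veluCurve_map_eq_of_fixed`).
-/

set_option autoImplicit false

noncomputable section

open WeierstrassCurve AlgebraicCurve ModularCurve
open scoped WeierstrassCurve.Affine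

namespace Fermat.Agent.S15.H542

section General

variable {K : Type*} [Field K] [DecidableEq K]

/-- `xOf` commutes with `Point.map` along a field automorphism. -/
theorem xOf_map_algEquiv {F : Type*} [Field F] [Algebra F K] (W : WeierstrassCurve F)
    (σ : K ≃ₐ[F] K) (P : (W⁄K).toAffine.Point) :
    xOf (WeierstrassCurve.Affine.Point.map (W' := W) σ.toAlgHom P) = σ (xOf P) := by
  cases P with
  | zero =>
    have h0 : WeierstrassCurve.Affine.Point.map (W' := W) σ.toAlgHom
        (WeierstrassCurve.Affine.Point.zero) = WeierstrassCurve.Affine.Point.zero :=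
      map_zero (WeierstrassCurve.Affine.Point.map (W' := W) σ.toAlgHom)
    rw [h0]
    simp [xOf]
  | some x y h => rfl

/-- The `x`-coordinate of a fixed point is fixed. -/
theorem xOf_fixed {F : Type*} [Field F] [Algebra F K] (W : WeierstrassCurve F)
    (σ : K ≃ₐ[F] K) (P : (W⁄K).toAffine.Point) (hP : σ • P = P) :
    σ (xOf P) = xOf P := by
  rw [← xOf_map_algEquiv W σ P]
  rw [WeierstrassCurve.Affine.Point.algEquiv_smul_def] at hP
  rw [hP]

/-- Multiples of a fixed point are fixed. -/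
theorem nsmul_fixed {F : Type*} [Field F] [Algebra F K] (W : WeierstrassCurve F)
    (σ : K ≃ₐ[F] K) (P : (W⁄K).toAffine.Point) (hP : σ • P = P) (k : ℕ) :
    σ • (k • P) = k • P := by
  rw [WeierstrassCurve.Affine.Point.algEquiv_smul_def] at hP ⊢
  rw [map_nsmul, hP]

end General

/-- `ℚ̄ / ℚ` is Galois. -/
theorem isGalois_Qbar_h542 : IsGalois ℚ (AlgebraicClosure ℚ) := by
  have : Algebra.IsAlgebraic ℚ (AlgebraicClosure ℚ) := AlgebraicClosure.isAlgebraic ℚ
  have : IsAlgClosure ℚ (AlgebraicClosure ℚ) := ⟨inferInstance, inferInstance⟩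
  exact IsAlgClosure.isGalois ℚ (AlgebraicClosure ℚ)

section Rational

variable (F : WeierstrassCurve ℚ) (Q : (F⁄(AlgebraicClosure ℚ)).toAffine.Point)
  (σ : AlgebraicClosure ℚ ≃ₐ[ℚ] AlgebraicClosure ℚ)

theorem sigma_b₂ : σ (F⁄(AlgebraicClosure ℚ)).b₂ = (F⁄(AlgebraicClosure ℚ)).b₂ := by
  change σ (F.map (algebraMap ℚ (AlgebraicClosure ℚ))).b₂ =
    (F.map (algebraMap ℚ (AlgebraicClosure ℚ))).b₂
  rw [WeierstrassCurve.map_b₂]
  exact σ.commutes _

theorem sigma_b₄ : σ (F⁄(AlgebraicClosure ℚ)).b₄ = (F⁄(AlgebraicClosure ℚ)).b₄ := by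
  change σ (F.map (algebraMap ℚ (AlgebraicClosure ℚ))).b₄ =
    (F.map (algebraMap ℚ (AlgebraicClosure ℚ))).b₄
  rw [WeierstrassCurve.map_b₄]
  exact σ.commutes _

theorem sigma_b₆ : σ (F⁄(AlgebraicClosure ℚ)).b₆ = (F⁄(AlgebraicClosure ℚ)).b₆ := by
  change σ (F.map (algebraMap ℚ (AlgebraicClosure ℚ))).b₆ =
    (F.map (algebraMap ℚ (AlgebraicClosure ℚ))).b₆
  rw [WeierstrassCurve.map_b₆]
  exact σ.commutes _

theorem sigma_veluT (hQ : σ • Q = Q) (p : ℕ) :
    σ (veluT (F⁄(AlgebraicClosure ℚ)) Q p) = veluT (F⁄(AlgebraicClosure ℚ)) Q p := by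
  unfold veluT veluT1
  rw [map_sum]
  refine Finset.sum_congr rfl fun k _ => ?_
  have hx := xOf_fixed F σ (k • Q) (nsmul_fixed F σ Q hQ k)
  simp only [map_add, map_mul, map_pow, map_ofNat, hx, sigma_b₂, sigma_b₄]

theorem sigma_veluW (hQ : σ • Q = Q) (p : ℕ) :
    σ (veluW (F⁄(AlgebraicClosure ℚ)) Q p) = veluW (F⁄(AlgebraicClosure ℚ)) Q p := by
  unfold veluW veluT1 veluU1
  rw [map_sum]
  refine Finset.sum_congr rfl fun k _ => ?_
  have hx := xOf_fixed F σ (k • Q) (nsmul_fixed F σ Q hQ k)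
  simp only [map_add, map_mul, map_pow, map_ofNat, hx, sigma_b₂, sigma_b₄, sigma_b₆]

/-- Vélu's curve of a fixed point is fixed. -/
theorem veluCurve_map_eq_of_fixed (hQ : σ • Q = Q) (p : ℕ) :
    (veluCurve (F⁄(AlgebraicClosure ℚ)) Q p).map (σ : AlgebraicClosure ℚ →+* AlgebraicClosure ℚ)
      = veluCurve (F⁄(AlgebraicClosure ℚ)) Q p := by
  have hT := sigma_veluT F Q σ hQ p
  have hW := sigma_veluW F Q σ hQ p
  have h2 := sigma_b₂ F σ
  have ha : ∀ a : ℚ, σ (algebraMap ℚ (AlgebraicClosure ℚ) a) = algebraMap ℚ (AlgebraicClosure ℚ) a :=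
    fun a => σ.commutes a
  ext
  · simp only [WeierstrassCurve.map_a₁, veluCurve, WeierstrassCurve.baseChange]
    exact ha _
  · simp only [WeierstrassCurve.map_a₂, veluCurve, WeierstrassCurve.baseChange]
    exact ha _
  · simp only [WeierstrassCurve.map_a₃, veluCurve, WeierstrassCurve.baseChange]
    exact ha _
  · simp only [WeierstrassCurve.map_a₄, veluCurve, RingHom.coe_coe, map_sub, map_mul, map_ofNat,
      hT]
    congr 1
    exact ha _
  · simp only [WeierstrassCurve.map_a₆, veluCurve, RingHom.coe_coe, map_sub, map_mul, map_ofNat,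
      hT, hW, h2]
    congr 2
    exact ha _

theorem sigma_jInv_veluCurve (hQ : σ • Q = Q) (p : ℕ) :
    σ (jInv (veluCurve (F⁄(AlgebraicClosure ℚ)) Q p)) =
      jInv (veluCurve (F⁄(AlgebraicClosure ℚ)) Q p) := by
  have h := veluCurve_map_eq_of_fixed F Q σ hQ p
  have h1 : jInv ((veluCurve (F⁄(AlgebraicClosure ℚ)) Q p).map
      (σ : AlgebraicClosure ℚ →+* AlgebraicClosure ℚ)) =
      σ (jInv (veluCurve (F⁄(AlgebraicClosure ℚ)) Q p)) := by
    simp only [jInv, WeierstrassCurve.map_c₄, WeierstrassCurve.map_Δ, RingHom.coe_coe, map_div₀,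
      map_pow]
  rw [← h1, h]

end Rational

/-- **MOD-V.** -/
theorem veluRational : VeluRationalStatement := by
  intro p W Q hQfix
  have := isGalois_Qbar_h542
  have h := (InfiniteGalois.mem_range_algebraMap_iff_fixed (k := ℚ) (K := AlgebraicClosure ℚ)
    (jInv (veluCurve (curveBar W) Q p))).mpr
    (fun σ => sigma_jInv_veluCurve (W.map (Int.castRingHom ℚ)) Q σ (hQfix σ) p)
  exact h

end Fermat.Agent.S15.H542
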