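import Fermat.Prelude.Def_ModularCurve_ReductionModL
import Fermat.Agent.Lib.RR.H864.FF1Modular

/-!
# S15 / GEO, piece GE-3 = REDu (helper542): to which cusp does a place reduce?

Abstract form, for ANY place-reduction map `r` satisfying the Prelude's `IsPlaceReductionAlong`
(at any level `N`, along any valuation ring `A` of any field `L ⊇ ℚ`):

* `mapDomain_eq_zero_of_red_eq_one` : if the integral `q`-series `y` reduces to `1`, then
  `r_* (div y) = 0`;
* `r_eq_of_pos_ord` : if moreover all poles of `y` lie in a set `S` of places and `x` is a zero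
  of `y`, then `r x = r P` for some `P ∈ S`;
* `r_eq_of_val_lt` / `r_eq_of_val_gt` (**REDu**): let `u` be a function with integral
  `q`-expansions `U` of `u` and `U'` of `u⁻¹` (a "modular unit"), and `x` a place with
  `u(x) = u₀`.  If `u₀ ∈ 𝔪_A` then `r x = r P` for a zero `P` of `u`; if `u₀⁻¹ ∈ 𝔪_A` then
  `r x = r P` for a pole `P` of `u`.
* `reductionAlong_mk_single_sub_single` : `red [(P) - (P')] = 0` as soon as `r P = r P'`.

No Tate curve: for `u = Δ(q)/Δ(q^p)`, `u₀ = U(W, Q)` the valuation of `u₀` is read off on `E`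
(`S15/H242/Psi2.lean`, `S15/H842/PsiVal.lean`).
-/

set_option autoImplicit false

noncomputable section

open HahnSeries IntermediateField AlgebraicCurve ModularCurve

namespace Fermat.Agent.S15.H542

section Abstract

variable {L : Type*} [Field L] [Algebra ℚ L] {A : ValuationSubring L}
variable {k : Type*} [Field k] {π : A →+* k} {N : ℕ}
variable {r : Place L (laurentBaseChange L (modularFunctionFieldFull N)) →
  Place k (modularFunctionFieldFullC k N)}

/-- If the integral `q`-series `y` reduces to `1`, then `r_* (div y) = 0`. -/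
theorem mapDomain_eq_zero_of_red_eq_one (hr : IsPlaceReductionAlong A π N r)
    (y : LaurentSeries A)
    (hy : coeffMap A.subtype y ∈ laurentBaseChange L (modularFunctionFieldFull N))
    (hy1 : coeffMap π y = 1)
    (D : Divisor L (laurentBaseChange L (modularFunctionFieldFull N)))
    (hD : ∀ P, D P = P.ord
      (⟨coeffMap A.subtype y, hy⟩ : laurentBaseChange L (modularFunctionFieldFull N))) :
    Finsupp.mapDomain r D = 0 := by
  have hyk : coeffMap π y ∈ modularFunctionFieldFullC k N := by
    rw [hy1]; exact one_mem _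
  have hne : coeffMap π y ≠ 0 := by
    rw [hy1]; exact one_ne_zero
  ext Q
  rw [hr.2 y hy hyk hne D hD Q, Finsupp.zero_apply]
  have h1 : (⟨coeffMap π y, hyk⟩ : modularFunctionFieldFullC k N) = 1 := Subtype.ext hy1
  rw [h1, Place.ord_one]

/-- A divisor with `r_* D = 0`: every place with positive coefficient has the same reduction as
some place with negative coefficient. -/
theorem exists_neg_of_mapDomain_eq_zero {α β : Type*} (f : α → β) (D : α →₀ ℤ)
    (hD : Finsupp.mapDomain f D = 0) {x : α} (hx : 0 < D x) :
    ∃ P, D P < 0 ∧ f P = f x := by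
  classical
  by_contra hcon
  push Not at hcon
  have h0 : Finsupp.mapDomain f D (f x) = 0 := by rw [hD, Finsupp.zero_apply]
  rw [Finsupp.mapDomain, Finsupp.sum_apply] at h0
  simp only [Finsupp.single_apply] at h0
  rw [Finsupp.sum] at h0
  have hnn : ∀ P ∈ D.support, 0 ≤ (if f P = f x then D P else 0) := by
    intro P _
    split_ifs with h
    · by_contra hlt
      exact hcon P (not_le.mp hlt) h
    · exact le_rfl
  have hxs : x ∈ D.support := Finsupp.mem_support_iff.mpr hx.ne'
  have hle : (if f x = f x then D x else 0) ≤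
      ∑ P ∈ D.support, (if f P = f x then D P else 0) :=
    Finset.single_le_sum hnn hxs
  rw [if_pos rfl, h0] at hle
  exact absurd hx (not_lt.mpr hle)

variable [HasPrincipalDivisors L (laurentBaseChange L (modularFunctionFieldFull N))]

/-- If `y` reduces to `1` and `x` is a zero of `y`, then `x` has the same reduction as some pole
of `y`. -/
theorem r_eq_of_pos_ord (hr : IsPlaceReductionAlong A π N r)
    (y : LaurentSeries A)
    (hy : coeffMap A.subtype y ∈ laurentBaseChange L (modularFunctionFieldFull N))
    (hy1 : coeffMap π y = 1)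
    (x : Place L (laurentBaseChange L (modularFunctionFieldFull N)))
    (hx : 0 < x.ord
      (⟨coeffMap A.subtype y, hy⟩ : laurentBaseChange L (modularFunctionFieldFull N))) :
    ∃ P : Place L (laurentBaseChange L (modularFunctionFieldFull N)),
      P.ord (⟨coeffMap A.subtype y, hy⟩ : laurentBaseChange L (modularFunctionFieldFull N)) < 0
        ∧ r P = r x := by
  have hne : (⟨coeffMap A.subtype y, hy⟩ : laurentBaseChange L (modularFunctionFieldFull N))
      ≠ 0 := by
    intro h0
    rw [h0, Place.ord_zero] at hx
    exact lt_irrefl _ hx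
  obtain ⟨D, hD, -⟩ := HasPrincipalDivisors.exists_divisor (K := L) _ hne
  have h0 := mapDomain_eq_zero_of_red_eq_one hr y hy hy1 D hD
  obtain ⟨P, hP, hPx⟩ := exists_neg_of_mapDomain_eq_zero r D h0 (x := x) (by rw [hD]; exact hx)
  exact ⟨P, by rw [← hD]; exact hP, hPx⟩

end Abstract

end Fermat.Agent.S15.H542

namespace Fermat.Agent.S15.H542

/-! ### Two lemmas on places -/

section PlaceLemmas

open Fermat.Agent.S24.FF

variable {K F : Type*} [Field K] [Field F] [Algebra K F] (v : Place K F)

theorem ord_neg_eq (f : F) : v.ord (-f) = v.ord f := by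
  rcases eq_or_ne f 0 with rfl | hf
  · simp
  have h1 : v.ord (-1 : F) = 0 := by
    have := ord_algebraMap v (-1 : K)
    rwa [map_neg, map_one] at this
  rw [← neg_one_mul, v.ord_mul (neg_ne_zero.mpr one_ne_zero) hf, h1, zero_add]

/-- If `u(v) = c ≠ 0`, then `ord_v u = 0`. -/
theorem ord_eq_zero_of_hasValue {u : F} {c : K} (hc : c ≠ 0)
    (h : 0 < v.ord (u - algebraMap K F c)) : v.ord u = 0 := by
  have hcF : algebraMap K F c ≠ 0 := by
    rw [Ne, map_eq_zero]; exact hc
  have hu : u ≠ 0 := by
    rintro rfl
    rw [zero_sub, ord_neg_eq, ord_algebraMap] at h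
    exact lt_irrefl _ h
  -- `u = (u - c) + c`
  have h1 : min (v.ord (u - algebraMap K F c)) (v.ord (algebraMap K F c)) ≤ v.ord u := by
    have := ord_add_ge v (f := u - algebraMap K F c) (g := algebraMap K F c)
      (by rw [sub_add_cancel]; exact hu)
    rwa [sub_add_cancel] at this
  rw [ord_algebraMap] at h1
  have h1' : 0 ≤ v.ord u := by
    have := min_eq_right h.le
    omega
  -- `c = u + (c - u)`
  by_contra hne0
  have hpos : 0 < v.ord u := lt_of_le_of_ne h1' (Ne.symm hne0)
  have h2 : min (v.ord u) (v.ord (algebraMap K F c - u)) ≤ v.ord (algebraMap K F c) := by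
    have := ord_add_ge v (f := u) (g := algebraMap K F c - u)
      (by rw [add_sub_cancel]; exact hcF)
    rwa [add_sub_cancel] at this
  have h3 : v.ord (algebraMap K F c - u) = v.ord (u - algebraMap K F c) := by
    rw [← neg_sub, ord_neg_eq]
  rw [h3, ord_algebraMap] at h2
  have : 0 < min (v.ord u) (v.ord (u - algebraMap K F c)) := lt_min hpos h
  omega

/-- `x` is a zero of `1 - c u⁻¹` when `u(x) = c ≠ 0`. -/
theorem ord_one_sub_mul_inv_pos {u : F} {c : K} (hc : c ≠ 0)
    (h : 0 < v.ord (u - algebraMap K F c)) :
    0 < v.ord (1 - algebraMap K F c * u⁻¹) := by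
  have h0 := ord_eq_zero_of_hasValue v hc h
  have hne : u - algebraMap K F c ≠ 0 := by
    intro h0
    rw [h0, Place.ord_zero] at h
    exact lt_irrefl _ h
  have hu : u ≠ 0 := by
    rintro rfl
    rw [zero_sub, ord_neg_eq, ord_algebraMap] at h
    exact lt_irrefl _ h
  have : 1 - algebraMap K F c * u⁻¹ = (u - algebraMap K F c) * u⁻¹ := by
    field_simp
  rw [this, v.ord_mul hne (inv_ne_zero hu), v.ord_inv, h0]
  omega

/-- `x` is a zero of `1 - c⁻¹ u` when `u(x) = c ≠ 0`. -/
theorem ord_one_sub_inv_mul_pos {u : F} {c : K} (hc : c ≠ 0)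
    (h : 0 < v.ord (u - algebraMap K F c)) :
    0 < v.ord (1 - algebraMap K F c⁻¹ * u) := by
  have hne : u - algebraMap K F c ≠ 0 := by
    intro h0
    rw [h0, Place.ord_zero] at h
    exact lt_irrefl _ h
  have hcF : algebraMap K F c ≠ 0 := by
    rw [Ne, map_eq_zero]; exact hc
  have : 1 - algebraMap K F c⁻¹ * u = algebraMap K F (-c⁻¹) * (u - algebraMap K F c) := by
    rw [map_neg, map_inv₀]
    field_simp
    ring
  rw [this, v.ord_mul (by rw [Ne, map_eq_zero]; exact neg_ne_zero.mpr (inv_ne_zero hc)) hne,
    ord_algebraMap]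
  omega

/-- A pole of `1 - c w` is a pole of `w`. -/
theorem ord_neg_of_ord_one_sub_mul_neg {w : F} {c : K}
    (h : v.ord (1 - algebraMap K F c * w) < 0) : v.ord w < 0 := by
  by_contra hw
  rw [not_lt] at hw
  have hw' : w ∈ v.toValuationSubring := mem_of_ord_nonneg v hw
  have : 1 - algebraMap K F c * w ∈ v.toValuationSubring :=
    sub_mem (one_mem _) (mul_mem (v.algebraMap_mem' c) hw')
  have := ord_nonneg_of_mem v this
  omega

end PlaceLemmas

/-! ### REDu -/

section REDu

variable {L : Type*} [Field L] [Algebra ℚ L] {A : ValuationSubring L}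
variable {k : Type*} [Field k] {π : A →+* k} {N : ℕ}
variable {r : Place L (laurentBaseChange L (modularFunctionFieldFull N)) →
  Place k (modularFunctionFieldFullC k N)}
variable [HasPrincipalDivisors L (laurentBaseChange L (modularFunctionFieldFull N))]

omit [HasPrincipalDivisors L (laurentBaseChange L (modularFunctionFieldFull N))] in
/-- the constant series -/
theorem coe_algebraMap_eq_single (c : L) :
    ((algebraMap L (laurentBaseChange L (modularFunctionFieldFull N)) c :
      laurentBaseChange L (modularFunctionFieldFull N)) : LaurentSeries L) =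
      HahnSeries.single 0 c := by
  rw [← algebraMap_laurentSeries_eq_single]
  rfl

/-- **REDu, core.**  `u` is a function with integral `q`-expansion `U`, `w` a function with
integral `q`-expansion `W`, `c = (a : L)` with `a ∈ A`, `π a = 0`, and `x` is a zero of
`1 - c w`.  Then `x` has the same reduction as some pole of `w`. -/
theorem r_eq_pole_of_zero (hr : IsPlaceReductionAlong A π N r)
    (W : LaurentSeries A)
    (hW : coeffMap A.subtype W ∈ laurentBaseChange L (modularFunctionFieldFull N))
    (a : A) (ha : π a = 0)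
    (x : Place L (laurentBaseChange L (modularFunctionFieldFull N)))
    (hx : 0 < x.ord (1 - algebraMap L (laurentBaseChange L (modularFunctionFieldFull N)) (a : L)
      * (⟨coeffMap A.subtype W, hW⟩ : laurentBaseChange L (modularFunctionFieldFull N)))) :
    ∃ P : Place L (laurentBaseChange L (modularFunctionFieldFull N)),
      P.ord (⟨coeffMap A.subtype W, hW⟩ : laurentBaseChange L (modularFunctionFieldFull N)) < 0
        ∧ r P = r x := by
  set y : LaurentSeries A := 1 - HahnSeries.single 0 a * W with hydef
  have hcy : coeffMap A.subtype y = 1 - HahnSeries.single 0 (a : L) * coeffMap A.subtype W := by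
    rw [hydef, map_sub, map_one, map_mul, coeffMap_single]
    rfl
  have hy : coeffMap A.subtype y ∈ laurentBaseChange L (modularFunctionFieldFull N) := by
    rw [hcy]
    refine sub_mem (one_mem _) (mul_mem ?_ hW)
    rw [← algebraMap_laurentSeries_eq_single]
    exact (laurentBaseChange L (modularFunctionFieldFull N)).algebraMap_mem _
  have hy1 : coeffMap π y = 1 := by
    rw [hydef, map_sub, map_one, map_mul, coeffMap_single, ha, HahnSeries.single_eq_zero,
      zero_mul, sub_zero]
  have heq : (⟨coeffMap A.subtype y, hy⟩ : laurentBaseChange L (modularFunctionFieldFull N)) =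
      1 - algebraMap L (laurentBaseChange L (modularFunctionFieldFull N)) (a : L)
        * (⟨coeffMap A.subtype W, hW⟩ : laurentBaseChange L (modularFunctionFieldFull N)) := by
    apply Subtype.ext
    change coeffMap A.subtype y = _
    rw [hcy]
    simp only [AddSubgroupClass.coe_sub, OneMemClass.coe_one, MulMemClass.coe_mul,
      coe_algebraMap_eq_single]
  obtain ⟨P, hP, hPx⟩ := r_eq_of_pos_ord hr y hy hy1 x (by rw [heq]; exact hx)
  rw [heq] at hP
  exact ⟨P, ord_neg_of_ord_one_sub_mul_neg P hP, hPx⟩

/-- **REDu (a).**  `u` has integral `q`-expansion `U` with integral inverse `U'`; `u(x) = u₀ ≠ 0`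
with `u₀ ∈ 𝔪_A`.  Then `x` has the same reduction as some ZERO of `u`. -/
theorem r_eq_zero_of_val_lt (hr : IsPlaceReductionAlong A π N r)
    (U U' : LaurentSeries A) (hUU' : U * U' = 1)
    (hU : coeffMap A.subtype U ∈ laurentBaseChange L (modularFunctionFieldFull N))
    (a : A) (ha : π a = 0) (ha0 : a ≠ 0)
    (x : Place L (laurentBaseChange L (modularFunctionFieldFull N)))
    (hx : 0 < x.ord ((⟨coeffMap A.subtype U, hU⟩ :
      laurentBaseChange L (modularFunctionFieldFull N)) -
        algebraMap L (laurentBaseChange L (modularFunctionFieldFull N)) (a : L))) :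
    ∃ P : Place L (laurentBaseChange L (modularFunctionFieldFull N)),
      0 < P.ord (⟨coeffMap A.subtype U, hU⟩ : laurentBaseChange L (modularFunctionFieldFull N))
        ∧ r P = r x := by
  have hmul : coeffMap A.subtype U * coeffMap A.subtype U' = 1 := by
    rw [← map_mul, hUU', map_one]
  have hinv : coeffMap A.subtype U' = (coeffMap A.subtype U)⁻¹ :=
    eq_inv_of_mul_eq_one_right hmul
  have hU' : coeffMap A.subtype U' ∈ laurentBaseChange L (modularFunctionFieldFull N) := by
    rw [hinv]; exact inv_mem hU
  have hinv' : (⟨coeffMap A.subtype U', hU'⟩ : laurentBaseChange L (modularFunctionFieldFull N))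
      = (⟨coeffMap A.subtype U, hU⟩ : laurentBaseChange L (modularFunctionFieldFull N))⁻¹ := by
    apply eq_inv_of_mul_eq_one_right
    exact Subtype.ext hmul
  have haL : (a : L) ≠ 0 := by
    intro h; exact ha0 (Subtype.ext h)
  obtain ⟨P, hP, hPx⟩ := r_eq_pole_of_zero hr U' hU' a ha x
    (by rw [hinv']; exact ord_one_sub_mul_inv_pos x haL hx)
  refine ⟨P, ?_, hPx⟩
  rw [hinv', P.ord_inv] at hP
  omega

/-- **REDu (b).**  `u` has integral `q`-expansion `U`; `u(x) = u₀` with `u₀⁻¹ = b ∈ 𝔪_A`.
Then `x` has the same reduction as some POLE of `u`. -/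
theorem r_eq_pole_of_val_gt (hr : IsPlaceReductionAlong A π N r)
    (U : LaurentSeries A)
    (hU : coeffMap A.subtype U ∈ laurentBaseChange L (modularFunctionFieldFull N))
    (b : A) (hb : π b = 0) (hb0 : b ≠ 0)
    (x : Place L (laurentBaseChange L (modularFunctionFieldFull N)))
    (hx : 0 < x.ord ((⟨coeffMap A.subtype U, hU⟩ :
      laurentBaseChange L (modularFunctionFieldFull N)) -
        algebraMap L (laurentBaseChange L (modularFunctionFieldFull N)) ((b : L)⁻¹))) :
    ∃ P : Place L (laurentBaseChange L (modularFunctionFieldFull N)),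
      P.ord (⟨coeffMap A.subtype U, hU⟩ : laurentBaseChange L (modularFunctionFieldFull N)) < 0
        ∧ r P = r x := by
  have hbL : (b : L) ≠ 0 := by
    intro h; exact hb0 (Subtype.ext h)
  have h1 := ord_one_sub_inv_mul_pos x (inv_ne_zero hbL) hx
  rw [inv_inv] at h1
  exact r_eq_pole_of_zero hr U hU b hb x h1

end REDu

end Fermat.Agent.S15.H542
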