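import Fermat.Agent.S15.H542.ModBSpec
import Fermat.Agent.S15.H662.Disc
import Fermat.Agent.S15.H215.LatticeModular
import Fermat.Agent.S15.H215.ModBGlue
import Fermat.Agent.S15.H902.Uniformization
import Fermat.Agent.S15.H215.ModBMap

/-!
# S15, node GEO, piece DISC (helper542): the discriminant of Vélu's curve

`velu_disc : Δ(E/⟨Q⟩) · (∏_{0<k<p} ψ₂(kQ))⁴ = Δ(E)^p`

for an elliptic curve `E` over `ℚ̄` (Weierstrass model), a point `Q` of odd prime order `p`,
`E/⟨Q⟩ = veluCurve E Q p` (Vélu's model) and `ψ₂(P) = 2y + a₁x + a₃`.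

Route: complex uniformisation (helper902) + lattice form of Vélu's formulas (helper215) +
`latDisc_divPair` (helper662) + a re-indexing of the product, then descent from `ℂ` to `ℚ̄`.
-/

set_option autoImplicit false

noncomputable section

open WeierstrassCurve
open scoped WeierstrassCurve.Affine PeriodPair

namespace Fermat.Agent.S15.H542

open Fermat.Agent.S15.H215 Fermat.Agent.S15.H662

/-! ## (A) the lattice identity -/

section Lattice

/-- `℘'` only depends on the lattice. -/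
theorem derivWeierstrassP_congr {L L' : PeriodPair} (h : L.lattice = L'.lattice) (z : ℂ) :
    ℘'[L] z = ℘'[L'] z := by
  unfold PeriodPair.derivWeierstrassP
  have h' : (L.lattice : Set ℂ) = (L'.lattice : Set ℂ) := by rw [h]
  exact congrArg Neg.neg (tsum_congr_set_coe (fun l : ℂ => 2 / (z - l) ^ 3) h')

/-- Re-indexing a product over the nonzero multiples of a `p`-division point. -/
theorem prod_Ioo_mul_eq (Λ : Submodule ℤ ℂ) (f : ℂ → ℂ)
    (hf : ∀ z : ℂ, ∀ l ∈ Λ, f (z + l) = f z) {p : ℕ} (hp : p.Prime) {z₀ w : ℂ}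
    (hpz : (p : ℂ) * z₀ ∈ Λ) (m : ℤ) (hm : ¬ (p : ℤ) ∣ m) (hw : w - m * z₀ ∈ Λ) :
    ∏ k ∈ Finset.Ioo 0 p, f ((k : ℂ) * w) = ∏ k ∈ Finset.Ioo 0 p, f ((k : ℂ) * z₀) := by
  have hp0 : (0 : ℤ) < p := by exact_mod_cast hp.pos
  have hpne : (p : ℤ) ≠ 0 := hp0.ne'
  have hpP : Prime (p : ℤ) := Nat.prime_iff_prime_int.mp hp
  set σ : ℕ → ℕ := fun k => (((k : ℤ) * m) % (p : ℤ)).toNat with hσ
  have hσcast : ∀ k : ℕ, ((σ k : ℕ) : ℤ) = ((k : ℤ) * m) % (p : ℤ) := fun k =>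
    Int.toNat_of_nonneg (Int.emod_nonneg _ hpne)
  have hnd : ∀ k ∈ Finset.Ioo 0 p, ¬ (p : ℤ) ∣ (k : ℤ) * m := by
    intro k hk hd
    rw [Finset.mem_Ioo] at hk
    rcases hpP.dvd_or_dvd hd with h | h
    · have h1 : p ∣ k := by exact_mod_cast h
      have := Nat.le_of_dvd hk.1 h1
      omega
    · exact hm h
  have hmaps : ∀ k ∈ Finset.Ioo 0 p, σ k ∈ Finset.Ioo 0 p := by
    intro k hk
    rw [Finset.mem_Ioo]
    have h1 : ((σ k : ℕ) : ℤ) < p := by rw [hσcast]; exact Int.emod_lt_of_pos _ hp0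
    have h2 : ((σ k : ℕ) : ℤ) ≠ 0 := by
      rw [hσcast]
      intro h0
      exact hnd k hk (Int.dvd_of_emod_eq_zero h0)
    constructor
    · have : σ k ≠ 0 := fun h => h2 (by rw [h]; rfl)
      omega
    · exact_mod_cast h1
  have hinj : Set.InjOn σ (Finset.Ioo 0 p : Set ℕ) := by
    intro k hk k' hk' hkk
    have hk1 := Finset.mem_Ioo.mp (Finset.mem_coe.mp hk)
    have hk2 := Finset.mem_Ioo.mp (Finset.mem_coe.mp hk')
    have h1 : ((k : ℤ) * m) % (p : ℤ) = ((k' : ℤ) * m) % (p : ℤ) := by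
      rw [← hσcast, ← hσcast]
      exact congrArg _ hkk
    have h2 : (p : ℤ) ∣ ((k : ℤ) - k') * m := by
      have := Int.emod_emod_of_dvd ((k : ℤ) * m) (dvd_refl (p : ℤ))
      have h3 : ((k : ℤ) * m - (k' : ℤ) * m) % (p : ℤ) = 0 := by
        rw [Int.sub_emod, h1, sub_self, Int.zero_emod]
      have := Int.dvd_of_emod_eq_zero h3
      rwa [← sub_mul] at this
    have h3 : (p : ℤ) ∣ (k : ℤ) - k' := (hpP.dvd_or_dvd h2).resolve_right hm
    obtain ⟨t, ht⟩ := h3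
    have ht0 : t = 0 := by
      by_contra hne
      have h4 : (1 : ℤ) ≤ |t| := Int.one_le_abs hne
      have h5 : |(k : ℤ) - k'| = (p : ℤ) * |t| := by rw [ht, abs_mul, abs_of_pos hp0]
      have h6 : |(k : ℤ) - k'| < p := by
        rw [abs_lt]
        constructor <;> omega
      nlinarith
    rw [ht0, mul_zero] at ht
    omega
  have hsurj : Set.SurjOn σ (Finset.Ioo 0 p : Set ℕ) (Finset.Ioo 0 p : Set ℕ) :=
    Finset.surjOn_of_injOn_of_card_le σ (fun k hk => hmaps k hk) hinj le_rfl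
  refine Finset.prod_nbij σ hmaps hinj hsurj fun k hk => ?_
  -- `k w = σ k z₀ + (lattice element)`
  have hdiv : ((k : ℤ) * m) = (σ k : ℤ) + (p : ℤ) * (((k : ℤ) * m) / (p : ℤ)) := by
    rw [hσcast]
    exact (Int.emod_add_mul_ediv _ _).symm
  set t : ℤ := ((k : ℤ) * m) / (p : ℤ) with ht
  have hmem : (t : ℂ) * ((p : ℂ) * z₀) + (k : ℂ) * (w - m * z₀) ∈ Λ := by
    refine Λ.add_mem ?_ ?_
    · have := Λ.smul_mem t hpz
      rwa [zsmul_eq_mul] at this
    · have := Λ.smul_mem (k : ℤ) hw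
      rw [zsmul_eq_mul] at this
      simpa using this
  have hC : ((k : ℂ) * (m : ℂ)) = (σ k : ℂ) + (p : ℂ) * (t : ℂ) := by
    have := congrArg (Int.cast : ℤ → ℂ) hdiv
    push_cast at this
    exact this
  have heq : (k : ℂ) * w =
      (σ k : ℂ) * z₀ + ((t : ℂ) * ((p : ℂ) * z₀) + (k : ℂ) * (w - m * z₀)) := by
    linear_combination z₀ * hC
  rw [heq, hf _ _ hmem]

variable {L L' : PeriodPair} {z₀ : ℂ} {p : ℕ}

/-- An aligned period pair: `L₀` with the lattice of `L` such that `divPair L₀ p` has the lattice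
of `L' = L + ℤ z₀`. -/
theorem exists_aligned_pair (hp : p.Prime) (h0 : z₀ ∉ L.lattice)
    (hpz : (p : ℂ) * z₀ ∈ L.lattice) (hL' : IsSuperLattice L L' z₀) :
    ∃ L₀ : PeriodPair, L₀.lattice = L.lattice ∧
      (divPair L₀ p hp.ne_zero).lattice = L'.lattice := by
  obtain ⟨a, b, hab⟩ := PeriodPair.mem_lattice.mp hpz
  have hLspan : L.lattice = Submodule.span ℤ {L.ω₁, L.ω₂} := rfl
  have swap : ∀ {u v : ℂ}, LinearIndependent ℝ ![u, v] → LinearIndependent ℝ ![v, u] := by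
    intro u v h
    rw [LinearIndependent.pair_iff] at h ⊢
    intro s t hst
    have := h t s (by rw [← hst]; ring)
    exact ⟨this.2, this.1⟩
  -- common end of the two cases
  have key : ∀ (ω e : ℂ), LinearIndependent ℝ ![ω, e] →
      (∀ z : ℂ, z ∈ L.lattice ↔ z ∈ Submodule.span ℤ {ω, e}) →
      (∀ z : ℂ, z ∈ L'.lattice ↔ z ∈ Submodule.span ℤ {ω, e / p}) →
      ∃ L₀ : PeriodPair, L₀.lattice = L.lattice ∧
        (divPair L₀ p hp.ne_zero).lattice = L'.lattice := by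
    intro ω e hind h1 h2
    refine ⟨⟨e, ω, swap hind⟩, ?_, ?_⟩
    · ext z
      rw [h1 z]
      show z ∈ Submodule.span ℤ {e, ω} ↔ _
      rw [Set.pair_comm]
    · ext z
      rw [h2 z]
      show z ∈ Submodule.span ℤ {e / (p : ℂ), ω} ↔ _
      rw [Set.pair_comm]
  by_cases hb : (p : ℤ) ∣ b
  · have ha : ¬ (p : ℤ) ∣ a := by
      rintro ⟨a', rfl⟩
      obtain ⟨b', rfl⟩ := hb
      apply h0
      rw [PeriodPair.mem_lattice]
      refine ⟨a', b', ?_⟩
      have hpC : (p : ℂ) ≠ 0 := by exact_mod_cast hp.ne_zero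
      apply mul_left_cancel₀ hpC
      rw [← hab]; push_cast; ring
    have hcop : IsCoprime a (p : ℤ) :=
      ((Nat.prime_iff_prime_int.mp hp).coprime_iff_not_dvd.mpr ha).symm
    obtain ⟨e, hind, hspan1, hspan2⟩ := exists_aligned_basis_h215 L.ω₂ L.ω₁ z₀ (swap L.indep) p
      hp.ne_zero b a (by rw [← hab]; ring) hcop
    refine key L.ω₂ e hind (fun z => ?_) (fun z => ?_)
    · rw [hLspan, Set.pair_comm L.ω₁ L.ω₂]
      exact hspan1 z
    · rw [hL' z, ← hspan2 z, hLspan, Set.pair_comm L.ω₁ L.ω₂]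
  · have hcop : IsCoprime b (p : ℤ) :=
      ((Nat.prime_iff_prime_int.mp hp).coprime_iff_not_dvd.mpr hb).symm
    obtain ⟨e, hind, hspan1, hspan2⟩ := exists_aligned_basis_h215 L.ω₁ L.ω₂ z₀ L.indep p
      hp.ne_zero a b hab.symm hcop
    refine key L.ω₁ e hind (fun z => ?_) (fun z => ?_)
    · rw [hLspan]
      exact hspan1 z
    · rw [hL' z, ← hspan2 z, hLspan]

/-- **The discriminant of `L + ℤ z₀`.** -/
theorem latDisc_superLattice (hp : p.Prime) (hp2 : p ≠ 2) (h0 : z₀ ∉ L.lattice)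
    (hpz : (p : ℂ) * z₀ ∈ L.lattice) (hL' : IsSuperLattice L L' z₀) :
    (L'.g₂ ^ 3 - 27 * L'.g₃ ^ 2) * (∏ k ∈ Finset.Ioo 0 p, ℘'[L] ((k : ℂ) * z₀)) ^ 4 =
      (L.g₂ ^ 3 - 27 * L.g₃ ^ 2) ^ p := by
  obtain ⟨L₀, hL₀, hL₀'⟩ := exists_aligned_pair hp h0 hpz hL'
  have hodd : Odd p := hp.odd_of_ne_two hp2
  have hmain := latDisc_divPair L₀ p hodd hp.ne_zero
  unfold latDisc at hmain
  rw [g₂_congr_h215 hL₀', g₃_congr_h215 hL₀', g₂_congr_h215 hL₀, g₃_congr_h215 hL₀] at hmain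
  rw [← hmain]
  congr 2
  -- the two products agree
  rw [derivProd_eq_prod_Ico]
  have hIco : Finset.Ico 1 p = Finset.Ioo 0 p := by
    ext k; simp [Finset.mem_Ico, Finset.mem_Ioo]; omega
  rw [hIco]
  -- `ω₁(L₀)/p ∈ L'`, so it is `m z₀` modulo `L`
  have hmem : L₀.ω₁ / p ∈ L'.lattice := by
    rw [← hL₀']
    exact div_mem_divPair L₀ p hp.ne_zero
  obtain ⟨m, hm⟩ := (hL' _).mp hmem
  have hnm : ¬ (p : ℤ) ∣ m := by
    intro hd
    have h1 : (m : ℂ) * z₀ ∈ L.lattice := (mul_mem_lattice_iff_h215 hp h0 hpz m).mpr hd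
    have h2 : L₀.ω₁ / p ∈ L.lattice := by
      have := L.lattice.add_mem hm h1
      simpa using this
    rw [← hL₀] at h2
    have h3 := natMul_div_notMem L₀ p (k := 1) (by omega) hp.one_lt
    apply h3
    simpa using h2
  have := prod_Ioo_mul_eq L.lattice (fun z => ℘'[L] z)
    (fun z l hl => L.derivWeierstrassP_add_coe z ⟨l, hl⟩) hp hpz m hnm hm
  beta_reduce at this
  rw [← this]
  refine Finset.prod_congr rfl fun k _ => ?_
  exact (derivWeierstrassP_congr hL₀ _).symm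

end Lattice

/-! ## (B) over `ℂ` -/

section Defs

variable {K : Type*} [Field K]

/-- `ψ₂(P) = 2 y + a₁ x + a₃` (junk value `a₃` at the origin). -/
def psiOf (W : WeierstrassCurve K) (P : W.toAffine.Point) : K :=
  2 * yOf P + W.a₁ * xOf P + W.a₃

/-- `∏_{0 < k < p} ψ₂(k Q)`. -/
def psiProdOf [DecidableEq K] (W : WeierstrassCurve K) (Q : W.toAffine.Point) (p : ℕ) : K :=
  ∏ k ∈ Finset.Ioo 0 p, psiOf W (k • Q)

end Defs

section Complex

/-- **The discriminant of Vélu's curve**, over `ℂ`. -/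
theorem velu_disc_complex [DecidableEq ℂ] {p : ℕ} (hp : p.Prime) (hp2 : p ≠ 2)
    (E : WeierstrassCurve ℂ) (hΔ : E.Δ ≠ 0) (Q : E.toAffine.Point) (hQord : addOrderOf Q = p) :
    (veluCurve E Q p).Δ * psiProdOf E Q p ^ 4 = E.Δ ^ p := by
  obtain ⟨U⟩ := Fermat.Agent.S15.H902.uniformization E hΔ
  obtain ⟨z₀, rfl⟩ := U.φ_surjective Q
  have h0 : z₀ ∉ U.L.lattice := by
    intro hz
    have : U.φ z₀ = 0 := (U.φ_eq_zero_iff z₀).mpr hz
    rw [this, addOrderOf_zero] at hQord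
    exact hp.one_lt.ne hQord
  have hpz : (p : ℂ) * z₀ ∈ U.L.lattice := by
    rw [← U.φ_eq_zero_iff]
    have h1 : U.φ ((p : ℂ) * z₀) = p • U.φ z₀ := by
      rw [← nsmul_eq_mul, map_nsmul]
    rw [h1, ← hQord]
    exact addOrderOf_nsmul_eq_zero _
  obtain ⟨L', hL'⟩ := exists_superLattice_h215 U.L hp h0 hpz
  have hg2 := g₂_superLattice_h215 hp h0 hpz hL'
  have hg3 := g₃_superLattice_h215 hp h0 hpz hL'
  obtain ⟨m, hm⟩ : ∃ m, p = 2 * m + 1 := by
    rcases hp.eq_two_or_odd' with h | h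
    · exact absurd h hp2
    · exact h
  have hm2 : (p - 1) / 2 = m := by omega
  have hm1 : p - 1 = 2 * m := by omega
  have hx : ∀ k ∈ Finset.Icc 1 m,
      xOf (k • U.φ z₀) = U.L.weierstrassP ((k : ℂ) * z₀) - E.b₂ / 12 := by
    intro k hk
    have hk' : k ∈ Finset.Icc 1 (p - 1) := by
      rw [Finset.mem_Icc] at hk ⊢; omega
    have hnot := natCast_mul_notMem_h215 hp h0 hpz hk'
    have h1 : k • U.φ z₀ = U.φ ((k : ℂ) * z₀) := by
      rw [← nsmul_eq_mul, map_nsmul]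
    rw [h1, U.xOf_φ _ hnot]
  have hfold2 : ∑ k ∈ Finset.Icc 1 (p - 1),
      (6 * U.L.weierstrassP (k * z₀) ^ 2 - U.L.g₂ / 2) =
      2 * ∑ k ∈ Finset.Icc 1 m, (6 * U.L.weierstrassP (k * z₀) ^ 2 - U.L.g₂ / 2) := by
    rw [hm1]
    refine sum_Icc_fold_h215 m
      (fun k => 6 * U.L.weierstrassP ((k : ℂ) * z₀) ^ 2 - U.L.g₂ / 2) fun k hk => ?_
    have hkp : k ≤ p := by rw [Finset.mem_Icc] at hk; omega
    have := weierstrassP_reflect_h215 U.L hpz hkp
    rw [hm] at this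
    simp only [this]
  have hfold3 : ∑ k ∈ Finset.Icc 1 (p - 1),
      (120 * U.L.weierstrassP (k * z₀) ^ 3 - 18 * U.L.g₂ * U.L.weierstrassP (k * z₀) -
        12 * U.L.g₃) =
      2 * ∑ k ∈ Finset.Icc 1 m,
        (120 * U.L.weierstrassP (k * z₀) ^ 3 - 18 * U.L.g₂ * U.L.weierstrassP (k * z₀) -
          12 * U.L.g₃) := by
    rw [hm1]
    refine sum_Icc_fold_h215 m
      (fun k => 120 * U.L.weierstrassP ((k : ℂ) * z₀) ^ 3 -
        18 * U.L.g₂ * U.L.weierstrassP ((k : ℂ) * z₀) - 12 * U.L.g₃) fun k hk => ?_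
    have hkp : k ≤ p := by rw [Finset.mem_Icc] at hk; omega
    have := weierstrassP_reflect_h215 U.L hpz hkp
    rw [hm] at this
    simp only [this]
  have hT : veluT E (U.φ z₀) p =
      ∑ k ∈ Finset.Icc 1 m, (6 * U.L.weierstrassP (k * z₀) ^ 2 - U.L.g₂ / 2) := by
    unfold veluT
    rw [hm2]
    refine Finset.sum_congr rfl fun k hk => ?_
    rw [hx k hk, U.g₂_eq]
    simp only [veluT1, WeierstrassCurve.c₄]
    ring
  have hW : E.b₂ * veluT E (U.φ z₀) p + 12 * veluW E (U.φ z₀) p =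
      ∑ k ∈ Finset.Icc 1 m,
        (120 * U.L.weierstrassP (k * z₀) ^ 3 - 18 * U.L.g₂ * U.L.weierstrassP (k * z₀) -
          12 * U.L.g₃) := by
    unfold veluT veluW
    rw [hm2, Finset.mul_sum, Finset.mul_sum, ← Finset.sum_add_distrib]
    refine Finset.sum_congr rfl fun k hk => ?_
    rw [hx k hk, U.g₂_eq, U.g₃_eq]
    simp only [veluT1, veluU1, WeierstrassCurve.c₄, WeierstrassCurve.c₆]
    ring
  have hc4 : (veluCurve E (U.φ z₀) p).c₄ = 12 * L'.g₂ := by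
    rw [hg2, hfold2, ← hT, U.g₂_eq]
    simp only [veluCurve, WeierstrassCurve.c₄, WeierstrassCurve.b₂, WeierstrassCurve.b₄]
    ring
  have hc6 : (veluCurve E (U.φ z₀) p).c₆ = 216 * L'.g₃ := by
    rw [hg3, hfold3, ← hW, U.g₃_eq]
    simp only [veluCurve, WeierstrassCurve.c₆, WeierstrassCurve.b₂, WeierstrassCurve.b₄,
      WeierstrassCurve.b₆]
    ring
  have hΔ' : (veluCurve E (U.φ z₀) p).Δ = L'.g₂ ^ 3 - 27 * L'.g₃ ^ 2 := by
    have := (veluCurve E (U.φ z₀) p).c_relation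
    rw [hc4, hc6] at this
    linear_combination (1 / 1728 : ℂ) * this
  have hΔE : E.Δ = U.L.g₂ ^ 3 - 27 * U.L.g₃ ^ 2 := by
    have := E.c_relation
    rw [U.g₂_eq, U.g₃_eq]
    linear_combination (1 / 1728 : ℂ) * this
  -- the product of the `ψ₂`
  have hψ : psiProdOf E (U.φ z₀) p = ∏ k ∈ Finset.Ioo 0 p, ℘'[U.L] ((k : ℂ) * z₀) := by
    unfold psiProdOf
    refine Finset.prod_congr rfl fun k hk => ?_
    have hk' : k ∈ Finset.Icc 1 (p - 1) := by
      rw [Finset.mem_Ioo] at hk; rw [Finset.mem_Icc]; omega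
    have hnot := natCast_mul_notMem_h215 hp h0 hpz hk'
    have h1 : k • U.φ z₀ = U.φ ((k : ℂ) * z₀) := by
      rw [← nsmul_eq_mul, map_nsmul]
    rw [h1, psiOf, U.yOf_φ _ hnot]
  rw [hΔ', hΔE, hψ]
  exact latDisc_superLattice hp hp2 h0 hpz hL'

end Complex

/-! ## (C) descent to `ℚ̄` -/

section Descent

variable {K L : Type} [Field K] [Field L] [DecidableEq K] [DecidableEq L] [Algebra K L]

theorem psiOf_map (W : WeierstrassCurve K) (P : W.toAffine.Point) :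
    psiOf (W⁄L) (WeierstrassCurve.Affine.Point.map (W' := W) (Algebra.ofId K L) P) =
      algebraMap K L (psiOf W P) := by
  unfold psiOf
  rw [xOf_map_h215, yOf_map_h215]
  simp [WeierstrassCurve.baseChange, map_ofNat]

theorem psiProdOf_map (W : WeierstrassCurve K) (Q : W.toAffine.Point) (p : ℕ) :
    psiProdOf (W⁄L) (WeierstrassCurve.Affine.Point.map (W' := W) (Algebra.ofId K L) Q) p =
      algebraMap K L (psiProdOf W Q p) := by
  unfold psiProdOf
  rw [map_prod]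
  refine Finset.prod_congr rfl fun k _ => ?_
  rw [nsmul_map_h215, psiOf_map]

/-- **The discriminant of Vélu's curve**, over `ℚ̄`. -/
theorem velu_disc [DecidableEq (AlgebraicClosure ℚ)] {p : ℕ} (hp : p.Prime) (hp2 : p ≠ 2)
    (E : WeierstrassCurve (AlgebraicClosure ℚ)) (hΔ : E.Δ ≠ 0) (Q : E.toAffine.Point)
    (hQord : addOrderOf Q = p) :
    (veluCurve E Q p).Δ * psiProdOf E Q p ^ 4 = E.Δ ^ p := by
  classical
  haveI : Algebra.IsAlgebraic ℚ (AlgebraicClosure ℚ) := AlgebraicClosure.isAlgebraic ℚ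
  let ι : AlgebraicClosure ℚ →ₐ[ℚ] ℂ := IsAlgClosed.lift
  letI : Algebra (AlgebraicClosure ℚ) ℂ := ι.toRingHom.toAlgebra
  have hmap := veluMap (K := AlgebraicClosure ℚ) (L := ℂ) E Q p
  have hord : addOrderOf
      (WeierstrassCurve.Affine.Point.map (W' := E) (Algebra.ofId (AlgebraicClosure ℚ) ℂ) Q) = p := by
    rw [← hQord]
    exact addOrderOf_injective
      (WeierstrassCurve.Affine.Point.map (W' := E) (Algebra.ofId (AlgebraicClosure ℚ) ℂ))
      (WeierstrassCurve.Affine.Point.map_injective _) Q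
  have hinj : Function.Injective (algebraMap (AlgebraicClosure ℚ) ℂ) :=
    (algebraMap (AlgebraicClosure ℚ) ℂ).injective
  have hΔ' : (E⁄ℂ).Δ ≠ 0 := by
    show (E.map (algebraMap (AlgebraicClosure ℚ) ℂ)).Δ ≠ 0
    rw [WeierstrassCurve.map_Δ]
    exact (map_ne_zero_iff _ hinj).mpr hΔ
  have h := velu_disc_complex hp hp2 (E⁄ℂ) hΔ' _ hord
  rw [hmap, psiProdOf_map, WeierstrassCurve.map_Δ] at h
  have hE : (E⁄ℂ).Δ = algebraMap (AlgebraicClosure ℚ) ℂ E.Δ := by
    show (E.map (algebraMap (AlgebraicClosure ℚ) ℂ)).Δ = _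
    rw [WeierstrassCurve.map_Δ]
  rw [hE, ← map_pow, ← map_pow, ← map_mul] at h
  exact hinj h

end Descent

end Fermat.Agent.S15.H542
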